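/-
S59lib / Flat / Iface  (helper9) — Project I, block C2: **`T_p W ⊗ O` is flat at `p` when `W` has
good reduction at `p`** (ordinary or supersingular).

Everything here is a statement (`Prop`) or a one-line consequence.  Route:

  `WGermStmt`  (the Weierstrass formal group `z = -x/y` is an `AnalyticGerm` over `A0 = A^I`, g = 1,
                with unramified centres)                                   — `Flat/{Root,ZW,Law,An,Germ,Centres}`
  `WTorsStmt`  (`W[p^k]` is a finite continuous Galois module)               — `Flat/Tors`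
   ⟹ `WHopfStmt` (Hopf algebra over `ℤ_(p)` for `W[p^k]`) by the GENERIC S19 machine
      `S19lib.hopfConclusion_of_germ E.orderStmt Lead.descentStmt H.packStmt`   (this file, `wHopf_of_germ`)
   ⟹ `WFlatStmt` (`(tateRep (WQ' W) p hpO hΔ).IsFlatAt p` for every complete local `O`, `p ∈ 𝔪_O`, finite
      residue field) by `S32lib/FM` (`HasFlatModel.pi`, `.of_surjective`) and `S58lib.Tate.isLim_tateMat`
                                                                                — `Flat/Main`
-/
import Fermat.Agent.S19lib.Iface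
import Fermat.Agent.S58lib.Tate.Family
import Fermat.Prelude.Def_GaloisRep_Flat

set_option autoImplicit false

noncomputable section

namespace Fermat.Agent.S59lib.Flat

open Fermat.Agent.S19lib Fermat.Agent.S58lib.Tate

local notation "Qb" => AlgebraicClosure ℚ
local notation "GQ" => (AlgebraicClosure ℚ ≃ₐ[ℚ] AlgebraicClosure ℚ)

/-- the `p^k`-torsion of `W(ℚ̄)` as an additive subgroup -/
def wTors (W : WeierstrassCurve ℤ) (p k : ℕ) : AddSubgroup (Pts (WQ' W)) :=
  (tors (Pts (WQ' W)) p k).toAddSubgroup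

/-- **C2-geom.** The kernel of reduction of `W` at a place over a prime of good reduction is an
analytic germ of dimension 1 (parameter `z = -x/y`), with unramified centres. -/
def WGermStmt : Prop :=
  ∀ (W : WeierstrassCurve ℤ) (p : ℕ) [Fact p.Prime], p ≠ 2 → ¬ (p : ℤ) ∣ W.Δ →
    ∀ A : ValuationSubring Qb, A.LiesOverPrime p →
      ∃ G : AnalyticGerm A p (Pts (WQ' W)), HasUnramifiedCentres G

/-- **C2-tors.** `W[p^k]` is a finite continuous Galois module. -/
def WTorsStmt : Prop :=
  ∀ (W : WeierstrassCurve ℤ), W.Δ ≠ 0 → ∀ (p : ℕ) [Fact p.Prime] (k : ℕ),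
    IsFiniteGaloisSubmodule (wTors W p k)

/-- **C2-Hopf.** `W[p^k]` is the group of `ℚ̄`-points of a finite flat group scheme over `ℤ_(p)`. -/
def WHopfStmt : Prop :=
  ∀ (W : WeierstrassCurve ℤ), W.Δ ≠ 0 → ∀ (p : ℕ) [Fact p.Prime], p ≠ 2 → ¬ (p : ℤ) ∣ W.Δ →
    ∀ k : ℕ,
    HopfConclusion p (wTors W p k)

/-- **C2 (deliverable).** The Tate module of `W` with coefficients in any complete local ring `O`
(`p ∈ 𝔪_O`, finite residue field) is flat at a prime `p` of good reduction. -/
def WFlatStmt : Prop :=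
  ∀ (W : WeierstrassCurve ℤ) (hΔ : W.Δ ≠ 0) (p : ℕ) [Fact p.Prime], p ≠ 2 → ¬ (p : ℤ) ∣ W.Δ →
    ∀ (O : Type) [CommRing O] [IsLocalRing O] [IsNoetherianRing O]
      [IsAdicComplete (IsLocalRing.maximalIdeal O) O] [Finite (IsLocalRing.ResidueField O)]
      (hpO : (p : O) ∈ IsLocalRing.maximalIdeal O),
      (tateRep (WQ' W) p hpO (WQ'_Δ_ne_zero hΔ)).IsFlatAt p

/-- the generic S19 machine applied to `W[p^k]`. -/
theorem wHopf_of_germ (hF : OrderStmt) (hG : DescentStmt) (hH : PackStmt)
    (hplace : ∀ p : ℕ, p.Prime → ∃ A : ValuationSubring Qb, A.LiesOverPrime p)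
    (hgerm : WGermStmt) (htors : WTorsStmt) : WHopfStmt := by
  intro W hΔ p _ hp2 hgood k
  obtain ⟨A, hA⟩ := hplace p Fact.out
  obtain ⟨G, hc⟩ := hgerm W p hp2 hgood A hA
  exact hopfConclusion_of_germ hF hG hH p A hA _ G hc _ (htors W hΔ p k)

end Fermat.Agent.S59lib.Flat
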