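/-
S59lib / Flat / Root  (helper9) — Project I, block C2 (flatness of `W[p^k]`, `W` good at `p`).

A Hensel substitute in an algebraically closed valued field: a polynomial whose constant
coefficient has valuation `< 1` and whose linear coefficient has valuation `1` has a root of
valuation `< 1`.  (Newton polygon, proved by induction over the multiset of roots.)
-/
import Mathlib

set_option autoImplicit false

namespace Fermat.Agent.S59lib.Flat

open Polynomial

variable {L : Type*} [Field L] {Γ₀ : Type*} [LinearOrderedCommGroupWithZero Γ₀]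
variable (v : Valuation L Γ₀)

/-- if all roots have valuation `≥ 1`, the constant coefficient dominates all coefficients -/
theorem val_coeff_le_coeff_zero (c : L) (s : Multiset L) (hs : ∀ r ∈ s, 1 ≤ v r) (k : ℕ) :
    v ((C c * (s.map (fun r => X - C r)).prod).coeff k) ≤
      v ((C c * (s.map (fun r => X - C r)).prod).coeff 0) := by
  induction s using Multiset.induction_on generalizing k with
  | empty =>
    simp only [Multiset.map_zero, Multiset.prod_zero, mul_one, coeff_C]
    split_ifs with h
    · exact le_rfl
    · rw [map_zero]; exact zero_le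
  | cons r s ih =>
    have hs' : ∀ r' ∈ s, 1 ≤ v r' := fun r' hr' => hs r' (Multiset.mem_cons_of_mem hr')
    have hr : 1 ≤ v r := hs r (Multiset.mem_cons_self r s)
    have ih' := ih hs'
    obtain ⟨q', hq'⟩ : ∃ q' : L[X], q' = C c * (s.map (fun r => X - C r)).prod := ⟨_, rfl⟩
    rw [← hq'] at ih'
    have hq : C c * ((r ::ₘ s).map (fun r => X - C r)).prod = X * q' - C r * q' := by
      rw [Multiset.map_cons, Multiset.prod_cons, hq']
      ring
    rw [hq]
    have h0 : (X * q' - C r * q').coeff 0 = -(r * q'.coeff 0) := by
      rw [coeff_sub, coeff_X_mul_zero, coeff_C_mul, zero_sub]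
    have hv0 : v ((X * q' - C r * q').coeff 0) = v r * v (q'.coeff 0) := by
      rw [h0, Valuation.map_neg, map_mul]
    rw [hv0]
    have hle : v (q'.coeff 0) ≤ v r * v (q'.coeff 0) := by
      calc v (q'.coeff 0) = 1 * v (q'.coeff 0) := (one_mul _).symm
        _ ≤ v r * v (q'.coeff 0) := mul_le_mul' hr le_rfl
    rcases k with _ | k
    · rw [hv0]
    · have e1 : (X * q' - C r * q').coeff (k + 1) = q'.coeff k - r * q'.coeff (k + 1) := by
        rw [coeff_sub, coeff_X_mul, coeff_C_mul]
      rw [e1]
      refine Valuation.map_sub_le v ?_ ?_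
      · exact le_trans (ih' k) hle
      · rw [map_mul]
        exact mul_le_mul' le_rfl (ih' (k + 1))

variable [IsAlgClosed L]

/-- **Hensel substitute.** -/
theorem exists_root_small (q : L[X]) (h0 : v (q.coeff 0) < 1) (h1 : v (q.coeff 1) = 1) :
    ∃ r : L, q.eval r = 0 ∧ v r < 1 := by
  by_contra hcon
  have hcon : ∀ r : L, q.eval r = 0 → 1 ≤ v r := by
    intro r hr
    by_contra hlt
    exact hcon ⟨r, hr, not_le.mp hlt⟩
  have hsp := (IsAlgClosed.splits q).eq_prod_roots
  have hroots : ∀ r ∈ q.roots, 1 ≤ v r := by
    intro r hr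
    have hq0 : q ≠ 0 := by
      rintro rfl
      simp at hr
    exact hcon r ((mem_roots hq0).mp hr)
  have key := val_coeff_le_coeff_zero v q.leadingCoeff q.roots hroots 1
  rw [← hsp, h1] at key
  exact absurd h0 (not_lt.mpr key)

/-- shifted version: a simple root modulo the maximal ideal lifts. -/
theorem exists_root_near (q : L[X]) (a : L) (h0 : v (q.eval a) < 1)
    (h1 : v (q.derivative.eval a) = 1) :
    ∃ r : L, q.eval r = 0 ∧ v (r - a) < 1 := by
  have hc0 : (q.comp (X + C a)).coeff 0 = q.eval a := by
    rw [coeff_zero_eq_eval_zero, eval_comp, eval_add, eval_X, eval_C, zero_add]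
  have hc1 : (q.comp (X + C a)).coeff 1 = q.derivative.eval a := by
    have h := congrArg (fun p : L[X] => p.eval 0) (derivative_comp q (X + C a))
    simp only [derivative_add, derivative_X, derivative_C, add_zero, eval_comp,
      eval_add, eval_X, eval_C, zero_add, one_mul] at h
    rw [← h, ← coeff_zero_eq_eval_zero, coeff_derivative]
    simp
  obtain ⟨r, hr, hrv⟩ := exists_root_small v (q.comp (X + C a)) (by rw [hc0]; exact h0)
    (by rw [hc1]; exact h1)
  refine ⟨r + a, ?_, by simpa using hrv⟩
  rw [eval_comp, eval_add, eval_X, eval_C] at hr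
  exact hr

end Fermat.Agent.S59lib.Flat
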