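/-
S59lib / Flat / Centres  (helper2) — Project I, block C2 (flatness of `W[p^k]`, `W` good at `p`).

**Unramified centres.**  `W` an integral Weierstrass model with good reduction at `p`, `A` a valuation
subring of `ℚ̄` over `p`.  Every point `x ∈ W(ℚ̄)` is congruent, modulo the kernel of reduction
`E₁ = {P | InE1 A.valuation P}` (S05lib), to a point `y` fixed by the inertia group of `A`:

* if `x ∈ E₁` take `y = 0`;
* otherwise `x = (x₀, y₀)` is integral with nonsingular reduction (`p ∤ Δ`).  If `∂F/∂y` is a unit at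
  `x`, replace `x₀` by an inertia-fixed `x₁ ≡ x₀` (a root of unity of order prime to `p`, or `0`:
  `S19lib/G/RootsUnity`) and let `y₁ ≡ y₀` be the root of the quadratic `F(x₁, Y)` (a SIMPLE root modulo
  the maximal ideal, `Flat/Root.exists_root_near`); inertia permutes the two roots and moves nothing
  modulo the maximal ideal, so it fixes `y₁`.  If `∂F/∂x` is a unit, exchange the roles of `x` and `y`
  (cubic in `X`).  Finally `S05lib.inE1_sub_of_congr`.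

No Hensel's lemma is needed: `ℚ̄` is algebraically closed.
-/
import Fermat.Agent.S59lib.Flat.Iface
import Fermat.Agent.S59lib.Flat.Root
import Fermat.Agent.S19lib.G.RootsUnity
import Fermat.Agent.S05lib.GoodRed
import Fermat.Agent.S41lib.NE.Reduction

set_option autoImplicit false

noncomputable section

namespace Fermat.Agent.S59lib.Flat

open Fermat.Agent.S19lib Fermat.Agent.S58lib.Tate Fermat.Agent.S05lib
open WeierstrassCurve WeierstrassCurve.Affine WeierstrassCurve.Affine.Point Polynomial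

local notation "Qb" => AlgebraicClosure ℚ
local notation "GQ" => (AlgebraicClosure ℚ ≃ₐ[ℚ] AlgebraicClosure ℚ)

/-! ### inertia-fixed representatives of residue classes -/

/-- every element of `A` is congruent modulo the maximal ideal to an inertia-fixed element of `A`
(`0`, or a root of unity of order prime to `p`). -/
theorem exists_A0_near {p : ℕ} (hp : p.Prime) {A : ValuationSubring Qb} (hA : A.LiesOverPrime p)
    {a : Qb} (ha : A.valuation a ≤ 1) :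
    ∃ a' : Qb, a' ∈ A0 A ∧ A.valuation (a - a') < 1 := by
  by_cases h : A.valuation a < 1
  · exact ⟨0, (A0 A).zero_mem, by rwa [sub_zero]⟩
  · have h1 : A.valuation a = 1 := le_antisymm ha (not_lt.mp h)
    have ha0 : a ≠ 0 := by
      rintro rfl
      rw [_root_.map_zero] at h1
      exact zero_ne_one h1
    have hmem : a ∈ A := (A.valuation_le_one_iff a).mp ha
    have hinv : a⁻¹ ∈ A := by
      rw [← A.valuation_le_one_iff, map_inv₀, h1, inv_one]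
    obtain ⟨N, ξ, hN, hξ, hd⟩ := G.exists_root_sub_mem_nonunits hp hA hmem hinv ha0
    refine ⟨ξ, G.root_mem_A0 hp hA hN hξ, ?_⟩
    exact (A.mem_nonunits_iff).mp hd

/-! ### the two lifting steps, over a general integral model -/

section lift

variable {A : ValuationSubring Qb} {E : WeierstrassCurve.Affine Qb}

/-- `F_y` is a unit: lift along `y`. -/
theorem exists_lift_y (hW : IntegralModel A.valuation E)
    {x₀ y₀ x₁ : Qb} (h₀ : E.Equation x₀ y₀) (hx₀ : A.valuation x₀ ≤ 1) (hy₀ : A.valuation y₀ ≤ 1)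
    (hx₁ : A.valuation x₁ ≤ 1) (hd : A.valuation (x₀ - x₁) < 1)
    (hY : A.valuation (2 * y₀ + E.a₁ * x₀ + E.a₃) = 1) :
    ∃ y₁ : Qb, E.Equation x₁ y₁ ∧ A.valuation (y₀ - y₁) < 1 ∧ A.valuation y₁ ≤ 1 ∧
      A.valuation (2 * y₁ + E.a₁ * x₁ + E.a₃) = 1 := by
  set v := A.valuation with hv
  rw [WeierstrassCurve.Affine.equation_iff] at h₀
  set q : Qb[X] := X ^ 2 + C (E.a₁ * x₁ + E.a₃) * X -
    C (x₁ ^ 3 + E.a₂ * x₁ ^ 2 + E.a₄ * x₁ + E.a₆) with hq
  have he : q.eval y₀ = (x₁ - x₀) * (E.a₁ * y₀ - (x₁ ^ 2 + x₁ * x₀ + x₀ ^ 2) - E.a₂ * (x₁ + x₀)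
      - E.a₄) := by
    simp only [hq, eval_sub, eval_add, eval_mul, eval_pow, eval_X, eval_C]
    linear_combination h₀
  have hle : v (E.a₁ * y₀ - (x₁ ^ 2 + x₁ * x₀ + x₀ ^ 2) - E.a₂ * (x₁ + x₀) - E.a₄) ≤ 1 := by
    have i1 : v (E.a₁ * y₀) ≤ 1 := by
      rw [map_mul]; exact mul_le_one' hW.a₁ hy₀
    have i2 : v (x₁ ^ 2 + x₁ * x₀ + x₀ ^ 2) ≤ 1 := by
      refine v.map_add_le (v.map_add_le ?_ ?_) ?_
      · rw [map_pow]; exact pow_le_one₀ zero_le hx₁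
      · rw [map_mul]; exact mul_le_one' hx₁ hx₀
      · rw [map_pow]; exact pow_le_one₀ zero_le hx₀
    have i3 : v (E.a₂ * (x₁ + x₀)) ≤ 1 := by
      rw [map_mul]; exact mul_le_one' hW.a₂ (v.map_add_le hx₁ hx₀)
    exact v.map_sub_le (v.map_sub_le (v.map_sub_le i1 i2) i3) hW.a₄
  have hd' : v (x₁ - x₀) < 1 := by rwa [Valuation.map_sub_swap]
  have h0 : v (q.eval y₀) < 1 := by
    rw [he, map_mul]
    calc v (x₁ - x₀) * v _ ≤ v (x₁ - x₀) * 1 := mul_le_mul' le_rfl hle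
      _ = v (x₁ - x₀) := mul_one _
      _ < 1 := hd'
  have hder : q.derivative.eval y₀ = (2 * y₀ + E.a₁ * x₀ + E.a₃) + E.a₁ * (x₁ - x₀) := by
    simp only [hq, derivative_sub, derivative_add, derivative_mul, derivative_X_pow, derivative_C,
      derivative_X, eval_sub, eval_add, eval_mul, eval_pow, eval_X, eval_C]
    norm_num
    ring
  have hsmall : v (E.a₁ * (x₁ - x₀)) < 1 := by
    rw [map_mul]
    calc v E.a₁ * v (x₁ - x₀) ≤ 1 * v (x₁ - x₀) := mul_le_mul' hW.a₁ le_rfl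
      _ = v (x₁ - x₀) := one_mul _
      _ < 1 := hd'
  have h1 : v (q.derivative.eval y₀) = 1 := by
    rw [hder, Valuation.map_add_eq_of_lt_left v (by rw [hY]; exact hsmall), hY]
  obtain ⟨y₁, hroot, hnear⟩ := exists_root_near v q y₀ h0 h1
  have hnear' : v (y₀ - y₁) < 1 := by rwa [Valuation.map_sub_swap]
  have hy₁ : v y₁ ≤ 1 := by
    have e : y₁ = y₀ + (y₁ - y₀) := by ring
    rw [e]
    exact v.map_add_le hy₀ hnear.le
  refine ⟨y₁, ?_, hnear', hy₁, ?_⟩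
  · rw [WeierstrassCurve.Affine.equation_iff]
    simp only [hq, eval_sub, eval_add, eval_mul, eval_pow, eval_X, eval_C] at hroot
    linear_combination hroot
  · have e : 2 * y₁ + E.a₁ * x₁ + E.a₃ =
        (2 * y₀ + E.a₁ * x₀ + E.a₃) + (2 * (y₁ - y₀) + E.a₁ * (x₁ - x₀)) := by ring
    have hs2 : v (2 * (y₁ - y₀) + E.a₁ * (x₁ - x₀)) < 1 := by
      refine lt_of_le_of_lt (v.map_add _ _) (max_lt ?_ hsmall)
      rw [map_mul]
      have h2 : v (2 : Qb) ≤ 1 := by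
        have := val_natCast_le_one (v := v) 2
        simpa using this
      calc v 2 * v (y₁ - y₀) ≤ 1 * v (y₁ - y₀) := mul_le_mul' h2 le_rfl
        _ = v (y₁ - y₀) := one_mul _
        _ < 1 := hnear
    rw [e, Valuation.map_add_eq_of_lt_left v (by rw [hY]; exact hs2), hY]

/-- `F_x` is a unit: lift along `x`. -/
theorem exists_lift_x (hW : IntegralModel A.valuation E)
    {x₀ y₀ y₁ : Qb} (h₀ : E.Equation x₀ y₀) (hx₀ : A.valuation x₀ ≤ 1) (hy₀ : A.valuation y₀ ≤ 1)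
    (hy₁ : A.valuation y₁ ≤ 1) (hd : A.valuation (y₀ - y₁) < 1)
    (hX : A.valuation (E.a₁ * y₀ - (3 * x₀ ^ 2 + 2 * E.a₂ * x₀ + E.a₄)) = 1) :
    ∃ x₁ : Qb, E.Equation x₁ y₁ ∧ A.valuation (x₀ - x₁) < 1 ∧ A.valuation x₁ ≤ 1 ∧
      A.valuation (E.a₁ * y₁ - (3 * x₁ ^ 2 + 2 * E.a₂ * x₁ + E.a₄)) = 1 := by
  set v := A.valuation with hv
  rw [WeierstrassCurve.Affine.equation_iff] at h₀
  set c : Qb[X] := X ^ 3 + C E.a₂ * X ^ 2 + C (E.a₄ - E.a₁ * y₁) * X +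
    C (E.a₆ - y₁ ^ 2 - E.a₃ * y₁) with hc
  have he : c.eval x₀ = (y₀ - y₁) * (y₀ + y₁ + E.a₁ * x₀ + E.a₃) := by
    simp only [hc, eval_add, eval_mul, eval_pow, eval_X, eval_C]
    linear_combination -h₀
  have h3 : v (3 : Qb) ≤ 1 := by
    have := val_natCast_le_one (v := v) 3
    simpa using this
  have h2 : v (2 : Qb) ≤ 1 := by
    have := val_natCast_le_one (v := v) 2
    simpa using this
  have hle : v (y₀ + y₁ + E.a₁ * x₀ + E.a₃) ≤ 1 := by
    refine v.map_add_le (v.map_add_le (v.map_add_le hy₀ hy₁) ?_) hW.a₃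
    rw [map_mul]; exact mul_le_one' hW.a₁ hx₀
  have h0 : v (c.eval x₀) < 1 := by
    rw [he, map_mul]
    calc v (y₀ - y₁) * v _ ≤ v (y₀ - y₁) * 1 := mul_le_mul' le_rfl hle
      _ = v (y₀ - y₁) := mul_one _
      _ < 1 := hd
  have hder : c.derivative.eval x₀ =
      -(E.a₁ * y₀ - (3 * x₀ ^ 2 + 2 * E.a₂ * x₀ + E.a₄)) + E.a₁ * (y₀ - y₁) := by
    simp only [hc, derivative_add, derivative_mul, derivative_X_pow, derivative_C,
      derivative_X, eval_add, eval_mul, eval_pow, eval_X, eval_C]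
    norm_num
    ring
  have hsmall : v (E.a₁ * (y₀ - y₁)) < 1 := by
    rw [map_mul]
    calc v E.a₁ * v (y₀ - y₁) ≤ 1 * v (y₀ - y₁) := mul_le_mul' hW.a₁ le_rfl
      _ = v (y₀ - y₁) := one_mul _
      _ < 1 := hd
  have h1 : v (c.derivative.eval x₀) = 1 := by
    rw [hder, Valuation.map_add_eq_of_lt_left v (by rw [Valuation.map_neg, hX]; exact hsmall),
      Valuation.map_neg, hX]
  obtain ⟨x₁, hroot, hnear⟩ := exists_root_near v c x₀ h0 h1
  have hnear' : v (x₀ - x₁) < 1 := by rwa [Valuation.map_sub_swap]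
  have hx₁ : v x₁ ≤ 1 := by
    have e : x₁ = x₀ + (x₁ - x₀) := by ring
    rw [e]
    exact v.map_add_le hx₀ hnear.le
  refine ⟨x₁, ?_, hnear', hx₁, ?_⟩
  · rw [WeierstrassCurve.Affine.equation_iff]
    simp only [hc, eval_add, eval_mul, eval_pow, eval_X, eval_C] at hroot
    linear_combination -hroot
  · have e : E.a₁ * y₁ - (3 * x₁ ^ 2 + 2 * E.a₂ * x₁ + E.a₄) =
        (E.a₁ * y₀ - (3 * x₀ ^ 2 + 2 * E.a₂ * x₀ + E.a₄)) +
          (-(E.a₁ * (y₀ - y₁)) - (x₁ - x₀) * (3 * (x₁ + x₀) + 2 * E.a₂)) := by ring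
    have hs2 : v (-(E.a₁ * (y₀ - y₁)) - (x₁ - x₀) * (3 * (x₁ + x₀) + 2 * E.a₂)) < 1 := by
      refine lt_of_le_of_lt (v.map_sub _ _) (max_lt (by rwa [Valuation.map_neg]) ?_)
      rw [map_mul]
      have i1 : v (3 * (x₁ + x₀) + 2 * E.a₂) ≤ 1 := by
        refine v.map_add_le ?_ ?_
        · rw [map_mul]; exact mul_le_one' h3 (v.map_add_le hx₁ hx₀)
        · rw [map_mul]; exact mul_le_one' h2 hW.a₂
      calc v (x₁ - x₀) * v _ ≤ v (x₁ - x₀) * 1 := mul_le_mul' le_rfl i1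
        _ = v (x₁ - x₀) := mul_one _
        _ < 1 := hnear
    rw [e, Valuation.map_add_eq_of_lt_left v (by rw [hX]; exact hs2), hX]

end lift

/-! ### inertia fixes the lifted coordinate -/

section fixed

variable {A : ValuationSubring Qb} {E₀ : WeierstrassCurve.Affine ℚ}

/-- a root of `F(x₁, Y)` which is simple modulo the maximal ideal is fixed by inertia
(if `x₁` is). -/
theorem inertia_fixes_y {σ : GQ} (hσ : σ ∈ IA A) {x₁ y₁ : Qb}
    (h₁ : (E₀⁄Qb).Equation x₁ y₁) (hx : σ x₁ = x₁) (hy₁ : A.valuation y₁ ≤ 1)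
    (hY : A.valuation (2 * y₁ + (E₀⁄Qb).a₁ * x₁ + (E₀⁄Qb).a₃) = 1) : σ y₁ = y₁ := by
  have h₂ : (E₀⁄Qb).Equation (σ.toAlgHom x₁) (σ.toAlgHom y₁) :=
    (E₀.baseChange_equation σ.toAlgHom.injective ..).mpr h₁
  have e1 : σ.toAlgHom x₁ = x₁ := hx
  rw [e1] at h₂
  set s : Qb := σ.toAlgHom y₁ with hs
  rw [WeierstrassCurve.Affine.equation_iff] at h₁ h₂
  have hprod : (s - y₁) * (s + y₁ + (E₀⁄Qb).a₁ * x₁ + (E₀⁄Qb).a₃) = 0 := by
    linear_combination h₂ - h₁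
  by_contra hne
  have hne' : s - y₁ ≠ 0 := sub_ne_zero.mpr hne
  have h0 : s + y₁ + (E₀⁄Qb).a₁ * x₁ + (E₀⁄Qb).a₃ = 0 :=
    (mul_eq_zero.mp hprod).resolve_left hne'
  have hlt : A.valuation (σ y₁ - y₁) < 1 :=
    inertia_sub_lt_one A hσ ((A.valuation_le_one_iff y₁).mp hy₁)
  have e : σ y₁ - y₁ = -(2 * y₁ + (E₀⁄Qb).a₁ * x₁ + (E₀⁄Qb).a₃) := by
    show s - y₁ = _
    linear_combination h0
  rw [e, Valuation.map_neg, hY] at hlt
  exact lt_irrefl _ hlt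

/-- a root of `F(X, y₁)` which is simple modulo the maximal ideal is fixed by inertia
(if `y₁` is). -/
theorem inertia_fixes_x {σ : GQ} (hσ : σ ∈ IA A) {x₁ y₁ : Qb}
    (hW : IntegralModel A.valuation (E₀⁄Qb))
    (h₁ : (E₀⁄Qb).Equation x₁ y₁) (hy : σ y₁ = y₁) (hx₁ : A.valuation x₁ ≤ 1)
    (hX : A.valuation ((E₀⁄Qb).a₁ * y₁ - (3 * x₁ ^ 2 + 2 * (E₀⁄Qb).a₂ * x₁ + (E₀⁄Qb).a₄)) = 1) :
    σ x₁ = x₁ := by
  have h₂ : (E₀⁄Qb).Equation (σ.toAlgHom x₁) (σ.toAlgHom y₁) :=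
    (E₀.baseChange_equation σ.toAlgHom.injective ..).mpr h₁
  have e1 : σ.toAlgHom y₁ = y₁ := hy
  rw [e1] at h₂
  set s : Qb := σ.toAlgHom x₁ with hs
  rw [WeierstrassCurve.Affine.equation_iff] at h₁ h₂
  have hprod : (s - x₁) * (s ^ 2 + s * x₁ + x₁ ^ 2 + (E₀⁄Qb).a₂ * (s + x₁) + (E₀⁄Qb).a₄
      - (E₀⁄Qb).a₁ * y₁) = 0 := by
    linear_combination h₁ - h₂
  by_contra hne
  have hne' : s - x₁ ≠ 0 := sub_ne_zero.mpr hne
  have h0 : s ^ 2 + s * x₁ + x₁ ^ 2 + (E₀⁄Qb).a₂ * (s + x₁) + (E₀⁄Qb).a₄ - (E₀⁄Qb).a₁ * y₁ = 0 :=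
    (mul_eq_zero.mp hprod).resolve_left hne'
  have hlt : A.valuation (σ x₁ - x₁) < 1 :=
    inertia_sub_lt_one A hσ ((A.valuation_le_one_iff x₁).mp hx₁)
  have hs1 : A.valuation s ≤ 1 := (inertia_val_le_one_iff A hσ x₁).mpr hx₁
  have h2 : A.valuation (2 : Qb) ≤ 1 := by
    have := val_natCast_le_one (v := A.valuation) 2
    rwa [Nat.cast_ofNat] at this
  have e : (E₀⁄Qb).a₁ * y₁ - (3 * x₁ ^ 2 + 2 * (E₀⁄Qb).a₂ * x₁ + (E₀⁄Qb).a₄) =
      (s - x₁) * (2 * x₁ + s + (E₀⁄Qb).a₂) := by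
    linear_combination -h0
  have hle : A.valuation (2 * x₁ + s + (E₀⁄Qb).a₂) ≤ 1 := by
    refine (A.valuation).map_add_le ((A.valuation).map_add_le ?_ hs1) hW.a₂
    rw [map_mul]; exact mul_le_one' h2 hx₁
  have hcontra : A.valuation ((E₀⁄Qb).a₁ * y₁ -
      (3 * x₁ ^ 2 + 2 * (E₀⁄Qb).a₂ * x₁ + (E₀⁄Qb).a₄)) < 1 := by
    rw [e, map_mul]
    calc A.valuation (s - x₁) * A.valuation _ ≤ A.valuation (s - x₁) * 1 :=
          mul_le_mul' le_rfl hle
      _ = A.valuation (s - x₁) := mul_one _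
      _ < 1 := hlt
  rw [hX] at hcontra
  exact lt_irrefl _ hcontra

end fixed

/-! ### the theorem -/

/-- **Unramified centres** for an integral Weierstrass model with good reduction at `p`. -/
theorem exists_unramified_centre (W : WeierstrassCurve ℤ) (p : ℕ) [Fact p.Prime]
    (hgood : ¬ (p : ℤ) ∣ W.Δ) (A : ValuationSubring Qb) (hA : A.LiesOverPrime p)
    (x : Pts (WQ' W)) :
    ∃ y : Pts (WQ' W), (∀ σ ∈ IA A, σ • y = y) ∧
      InE1 A.valuation ((WQ' W)⁄Qb).toAffine (x - y) := by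
  have hp : p.Prime := Fact.out
  have hW : IntegralModel A.valuation ((WQ' W)⁄Qb).toAffine :=
    Fermat.Agent.S41lib.NE.integralModel_baseChange_int W A
  have hΔ : A.valuation ((WQ' W)⁄Qb).Δ = 1 := by
    rw [(Fermat.Agent.S41lib.NE.baseChange_int_coeffs W (K := Qb)).2.2.2.2.2]
    exact (val_intCast_eq_one_iff hp hA _).mpr hgood
  have hΔ0 : ((WQ' W)⁄Qb).Δ ≠ 0 := by
    intro h0
    rw [h0, _root_.map_zero] at hΔ
    exact zero_ne_one hΔ
  rcases x with _ | ⟨x₀, y₀, h₀⟩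
  · exact ⟨0, fun _ _ => rfl, by
      have e : (Point.zero : Pts (WQ' W)) - 0 = 0 := sub_zero _
      rw [e]; trivial⟩
  by_cases hx : 1 < A.valuation x₀
  · refine ⟨0, fun _ _ => rfl, ?_⟩
    rw [sub_zero]
    exact hx
  rw [not_lt] at hx
  have hy := val_y_le_one_of_val_x_le_one hW h₀.1 hx
  have hns := nonsingular_red_of_val_Δ hW h₀.1 hx hy hΔ
  rcases hns with hX | hY
  · -- lift along `x`
    obtain ⟨y₁, hy₁A0, hdy⟩ := exists_A0_near hp hA hy
    have hy₁ : A.valuation y₁ ≤ 1 := (A.valuation_le_one_iff y₁).mpr hy₁A0.1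
    obtain ⟨x₁, heq, hdx, hx₁, hX₁⟩ := exists_lift_x hW h₀.1 hx hy hy₁ hdy hX
    have h₁ : ((WQ' W)⁄Qb).toAffine.Nonsingular x₁ y₁ :=
      (equation_iff_nonsingular_of_Δ_ne_zero hΔ0).mp heq
    refine ⟨Point.some x₁ y₁ h₁, fun σ hσ => ?_, ?_⟩
    · have hyfix : σ y₁ = y₁ := hy₁A0.2 σ hσ
      have hxfix : σ x₁ = x₁ := inertia_fixes_x hσ hW heq hyfix hx₁ hX₁
      exact smul_eq_self_of_coords (WQ' W) σ (Point.some x₁ y₁ h₁) hxfix hyfix
    · exact inE1_sub_of_congr hW h₀ h₁ hx hy hx₁ hy₁ hdx hdy (Or.inl hX)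
  · -- lift along `y`
    obtain ⟨x₁, hx₁A0, hdx⟩ := exists_A0_near hp hA hx
    have hx₁ : A.valuation x₁ ≤ 1 := (A.valuation_le_one_iff x₁).mpr hx₁A0.1
    obtain ⟨y₁, heq, hdy, hy₁, hY₁⟩ := exists_lift_y hW h₀.1 hx hy hx₁ hdx hY
    have h₁ : ((WQ' W)⁄Qb).toAffine.Nonsingular x₁ y₁ :=
      (equation_iff_nonsingular_of_Δ_ne_zero hΔ0).mp heq
    refine ⟨Point.some x₁ y₁ h₁, fun σ hσ => ?_, ?_⟩
    · have hxfix : σ x₁ = x₁ := hx₁A0.2 σ hσ
      have hyfix : σ y₁ = y₁ := inertia_fixes_y hσ heq hxfix hy₁ hY₁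
      exact smul_eq_self_of_coords (WQ' W) σ (Point.some x₁ y₁ h₁) hxfix hyfix
    · exact inE1_sub_of_congr hW h₀ h₁ hx hy hx₁ hy₁ hdx hdy (Or.inr hY)

end Fermat.Agent.S59lib.Flat
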