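/-
S59lib / Flat / ZW  (helper9) — Project I, block C2.

The kernel of reduction `E₁` of an integral Weierstrass model over an algebraically closed valued
field is parametrised by the open unit disc: `z ↦ ptOf z = (z / w(z), -1 / w(z))`, where `w(z)` is
the unique root of valuation `< 1` of the `(z,w)`-form of the Weierstrass equation; the inverse
is `zc = -x/y` (from `S05lib/KerRed`).
-/
import Fermat.Agent.S05lib.KerRed.Main
import Fermat.Agent.S59lib.Flat.Root

set_option autoImplicit false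

noncomputable section

namespace Fermat.Agent.S59lib.Flat

open Fermat.Agent.S05lib WeierstrassCurve Polynomial

variable {K : Type*} [Field K] {Γ₀ : Type*} [LinearOrderedCommGroupWithZero Γ₀]
variable {v : Valuation K Γ₀} {W : WeierstrassCurve.Affine K}

/-- the `(z,w)`-equation of `W` -/
abbrev ZW (W : WeierstrassCurve.Affine K) (z w : K) : Prop :=
  ZWEq W.a₁ W.a₂ W.a₃ W.a₄ W.a₆ z w

theorem sm_one_of_le {t : Γ₀} {x : K} (h : v x ≤ t) : Sm v t 1 x := by
  unfold Sm; rwa [pow_one]

/-- the chord unit is a unit on the open disc -/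
theorem val_chordU_of_lt (hW : IntegralModel v W) {z w w' : K} (hz : v z < 1) (hw : v w < 1)
    (hw' : v w' < 1) : v (chordU W.a₁ W.a₂ W.a₃ W.a₄ W.a₆ z w w') = 1 := by
  have ht : max (v z) (max (v w) (v w')) < 1 := max_lt hz (max_lt hw hw')
  exact val_chordU hW.a₁ hW.a₂ hW.a₃ hW.a₄ hW.a₆ ht (sm_one_of_le (le_max_left _ _))
    (sm_one_of_le (le_trans (le_max_left _ _) (le_max_right _ _)))
    (sm_one_of_le (le_trans (le_max_right _ _) (le_max_right _ _)))

/-- uniqueness of `w(z)` -/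
theorem zw_unique (hW : IntegralModel v W) {z w w' : K} (hz : v z < 1) (hw : v w < 1)
    (hw' : v w' < 1) (e : ZW W z w) (e' : ZW W z w') : w = w' := by
  have h := chord_factor W.a₁ W.a₂ W.a₃ W.a₄ W.a₆ e e'
  rw [sub_self, zero_mul] at h
  have hU : chordU W.a₁ W.a₂ W.a₃ W.a₄ W.a₆ z w w' ≠ 0 := by
    intro h0
    have := val_chordU_of_lt hW hz hw hw'
    rw [h0, map_zero] at this
    exact zero_ne_one this
  have := (mul_eq_zero.mp h).resolve_right hU
  exact (sub_eq_zero.mp this).symm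

/-- `v w = v z ^ 3` -/
theorem val_w_of_zw (hW : IntegralModel v W) {z w : K} (hz : v z < 1) (hw : v w < 1)
    (e : ZW W z w) : v w = v z ^ 3 := by
  have h := zw_unit_factor W.a₁ W.a₂ W.a₃ W.a₄ W.a₆ e
  have hU : 1 - W.a₁ * z - W.a₂ * z ^ 2 - W.a₃ * w - W.a₄ * z * w - W.a₆ * w ^ 2 =
      chordU W.a₁ W.a₂ W.a₃ W.a₄ W.a₆ z w 0 := by
    unfold chordU; ring
  have hv := val_chordU_of_lt hW hz hw (w' := 0) (by rw [map_zero]; exact zero_lt_one)
  have := congrArg v h
  rwa [map_mul, hU, hv, mul_one, map_pow] at this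

/-- `w = 0` iff `z = 0` -/
theorem w_eq_zero_iff (hW : IntegralModel v W) {z w : K} (hz : v z < 1) (hw : v w < 1)
    (e : ZW W z w) : w = 0 ↔ z = 0 := by
  have h := val_w_of_zw hW hz hw e
  constructor
  · intro h0
    rw [h0, map_zero] at h
    exact (map_eq_zero v).mp (pow_eq_zero_iff (by norm_num) |>.mp h.symm)
  · intro h0
    rw [h0, map_zero, zero_pow (by norm_num)] at h
    exact (map_eq_zero v).mp h

/-- existence of `w(z)` -/
theorem zw_exists [IsAlgClosed K] (hW : IntegralModel v W) {z : K} (hz : v z < 1) :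
    ∃ w : K, v w < 1 ∧ ZW W z w := by
  set q : K[X] := C W.a₆ * X ^ 3 + C (W.a₃ + W.a₄ * z) * X ^ 2 +
    C (W.a₁ * z + W.a₂ * z ^ 2 - 1) * X + C (z ^ 3) with hq
  have hc0 : q.coeff 0 = z ^ 3 := by
    rw [hq]
    simp only [coeff_add, coeff_C_mul, coeff_X_pow, coeff_X, coeff_C]
    norm_num
  have hc1 : q.coeff 1 = W.a₁ * z + W.a₂ * z ^ 2 - 1 := by
    rw [hq]
    simp only [coeff_add, coeff_C_mul, coeff_X_pow, coeff_X, coeff_C]
    norm_num
  have h0 : v (q.coeff 0) < 1 := by
    rw [hc0, map_pow]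
    exact pow_lt_one₀ zero_le hz (by norm_num)
  have h1 : v (q.coeff 1) = 1 := by
    rw [hc1]
    have e : W.a₁ * z + W.a₂ * z ^ 2 - 1 = -(1 - (W.a₁ * z + W.a₂ * z ^ 2)) := by ring
    rw [e, Valuation.map_neg]
    apply val_one_sub_of_sm hz (k := 1) one_pos
    have sz : Sm v (v z) 1 z := sm_one_of_le le_rfl
    refine Sm.add ?_ ?_
    · exact ((Sm.of_int hW.a₁).mul sz).mono hz.le (by norm_num)
    · exact ((Sm.of_int hW.a₂).mul (sz.pow 2)).mono hz.le (by norm_num)
  obtain ⟨w, hw0, hwv⟩ := exists_root_small v q h0 h1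
  refine ⟨w, hwv, ?_⟩
  simp only [hq, eval_add, eval_mul, eval_C, eval_pow, eval_X] at hw0
  unfold ZW ZWEq
  linear_combination -hw0

variable [IsAlgClosed K]

/-- the function `w(z)` (junk value `0` outside the open disc) -/
def wOf (hW : IntegralModel v W) (z : K) : K :=
  if h : v z < 1 then Classical.choose (zw_exists hW h) else 0

theorem val_wOf_lt (hW : IntegralModel v W) {z : K} (hz : v z < 1) : v (wOf hW z) < 1 := by
  unfold wOf
  rw [dif_pos hz]
  exact (Classical.choose_spec (zw_exists hW hz)).1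

theorem zw_wOf (hW : IntegralModel v W) {z : K} (hz : v z < 1) : ZW W z (wOf hW z) := by
  unfold wOf
  rw [dif_pos hz]
  exact (Classical.choose_spec (zw_exists hW hz)).2

theorem wOf_eq (hW : IntegralModel v W) {z w : K} (hz : v z < 1) (hw : v w < 1) (e : ZW W z w) :
    wOf hW z = w :=
  zw_unique hW hz (val_wOf_lt hW hz) hw (zw_wOf hW hz) e

theorem val_wOf (hW : IntegralModel v W) {z : K} (hz : v z < 1) : v (wOf hW z) = v z ^ 3 :=
  val_w_of_zw hW hz (val_wOf_lt hW hz) (zw_wOf hW hz)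

theorem wOf_zero (hW : IntegralModel v W) : wOf hW (0 : K) = 0 := by
  have h0 : v (0 : K) < 1 := by rw [map_zero]; exact zero_lt_one
  exact (w_eq_zero_iff hW h0 (val_wOf_lt hW h0) (zw_wOf hW h0)).mpr rfl

theorem wOf_ne_zero (hW : IntegralModel v W) {z : K} (hz : v z < 1) (hz0 : z ≠ 0) :
    wOf hW z ≠ 0 := fun h =>
  hz0 ((w_eq_zero_iff hW hz (val_wOf_lt hW hz) (zw_wOf hW hz)).mp h)

/-! ### the point with parameter `z` -/

omit [IsAlgClosed K] in
/-- the affine equation from the `(z,w)`-equation -/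
theorem equation_of_zw {z w : K} (e : ZW W z w) (hw : w ≠ 0) : W.Equation (z / w) (-1 / w) := by
  rw [WeierstrassCurve.Affine.equation_iff]
  unfold ZW ZWEq at e
  field_simp
  linear_combination e

variable [W.IsElliptic]

open scoped Classical in
/-- the point of `E₁` with parameter `z` -/
def ptOf (hW : IntegralModel v W) (z : K) : W.Point :=
  if h : v z < 1 ∧ z ≠ 0 then
    .some (z / wOf hW z) (-1 / wOf hW z)
      (W.equation_iff_nonsingular.mp
        (equation_of_zw (zw_wOf hW h.1) (wOf_ne_zero hW h.1 h.2)))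
  else 0

theorem ptOf_zero (hW : IntegralModel v W) : ptOf hW (0 : K) = 0 := by
  unfold ptOf
  rw [dif_neg (fun h => h.2 rfl)]

theorem ptOf_of_ne (hW : IntegralModel v W) {z : K} (hz : v z < 1) (hz0 : z ≠ 0) :
    ptOf hW z = .some (z / wOf hW z) (-1 / wOf hW z)
      (W.equation_iff_nonsingular.mp
        (equation_of_zw (zw_wOf hW hz) (wOf_ne_zero hW hz hz0))) := by
  unfold ptOf
  rw [dif_pos ⟨hz, hz0⟩]

theorem zc_ptOf (hW : IntegralModel v W) {z : K} (hz : v z < 1) : zc (ptOf hW z) = z := by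
  by_cases hz0 : z = 0
  · rw [hz0, ptOf_zero, zc_zero]
  · rw [ptOf_of_ne hW hz hz0, zc_some]
    have := wOf_ne_zero hW hz hz0
    field_simp

theorem inE1_ptOf (hW : IntegralModel v W) {z : K} (hz : v z < 1) : InE1 v W (ptOf hW z) := by
  by_cases hz0 : z = 0
  · rw [hz0, ptOf_zero]; exact inE1_zero
  · rw [ptOf_of_ne hW hz hz0, inE1_some, map_div₀, val_wOf hW hz]
    have hvz : v z ≠ 0 := (Valuation.ne_zero_iff v).mpr hz0
    have h2 : v z ^ 2 < 1 := pow_lt_one₀ zero_le hz (by norm_num)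
    have e : v z / v z ^ 3 = (v z ^ 2)⁻¹ := by
      field_simp
    rw [e]
    exact (one_lt_inv₀ (zero_lt_iff.mpr (pow_ne_zero 2 hvz))).mpr h2

omit [IsAlgClosed K] [W.IsElliptic] in
/-- `zc` of a point of `E₁` lies in the open disc -/
theorem val_zc_lt (hW : IntegralModel v W) {P : W.Point} (hP : InE1 v W P) : v (zc P) < 1 := by
  rcases P with _ | ⟨x, y, h⟩
  · show v (0 : K) < 1
    rw [map_zero]; exact zero_lt_one
  · rw [zc_some, neg_div, Valuation.map_neg]
    exact val_z_lt_one hW h.1 hP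

theorem ptOf_zc (hW : IntegralModel v W) {P : W.Point} (hP : InE1 v W P) :
    ptOf hW (zc P) = P := by
  rcases P with _ | ⟨x, y, h⟩
  · exact ptOf_zero hW
  · have hx : 1 < v x := hP
    have hy := y_ne_zero_of_one_lt hW h.1 hx
    have hx0 : x ≠ 0 := by
      rintro rfl
      rw [map_zero] at hx
      exact absurd hx (not_lt.mpr zero_le)
    have hz : v (-x / y) < 1 := by
      rw [neg_div, Valuation.map_neg]; exact val_z_lt_one hW h.1 hx
    have hz0 : -x / y ≠ 0 := div_ne_zero (neg_ne_zero.mpr hx0) hy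
    have hwv : v (-1 / y) < 1 := by
      have := val_w hW h.1 hx
      rw [neg_div, Valuation.map_neg, this]
      exact pow_lt_one₀ zero_le (val_z_lt_one hW h.1 hx) (by norm_num)
    have hw : wOf hW (-x / y) = -1 / y := wOf_eq hW hz hwv (zw_equation W h.1 hy)
    rw [zc_some, ptOf_of_ne hW hz hz0]
    have e1 : -x / y / wOf hW (-x / y) = x := by
      rw [hw]; field_simp
    have e2 : -1 / wOf hW (-x / y) = y := by
      rw [hw]; field_simp
    congr 1

end Fermat.Agent.S59lib.Flat
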