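/-
S59lib / Flat / Law  (helper9) — Project I, block C2.

The group law of `E₁` in the parameter `z`: explicit rational formulas
`zc (ptOf z₁ + ptOf z₂) = Fz z₁ z₂ (w z₁) (w z₂)` and `zc (-(ptOf z)) = negZ z (w z)`,
valid for ALL `z₁, z₂` of the open unit disc (generic chord, tangent, and the degenerate cases).
-/
import Fermat.Agent.S59lib.Flat.ZW

set_option autoImplicit false

noncomputable section

namespace Fermat.Agent.S59lib.Flat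

open Fermat.Agent.S05lib WeierstrassCurve

variable {K : Type*} [Field K] {Γ₀ : Type*} [LinearOrderedCommGroupWithZero Γ₀]
variable {v : Valuation K Γ₀} (W : WeierstrassCurve.Affine K)

/-! ### the formulas -/

/-- slope of the chord in the `(z,w)`-plane -/
def lamOf (z₁ z₂ w₁ w₂ : K) : K :=
  chordN W.a₁ W.a₂ W.a₄ z₁ z₂ w₂ / chordU W.a₁ W.a₂ W.a₃ W.a₄ W.a₆ z₁ w₁ w₂

/-- intercept of the chord in the `(z,w)`-plane -/
def nuOf (z₁ z₂ w₁ w₂ : K) : K := w₁ - lamOf W z₁ z₂ w₁ w₂ * z₁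

/-- `z` of the third intersection point -/
def z3Of (z₁ z₂ w₁ w₂ : K) : K :=
  -z₁ - z₂ - cTwo W.a₁ W.a₂ W.a₃ W.a₄ W.a₆ (lamOf W z₁ z₂ w₁ w₂) (nuOf W z₁ z₂ w₁ w₂) /
    cThree W.a₂ W.a₄ W.a₆ (lamOf W z₁ z₂ w₁ w₂)

/-- `w` of the third intersection point -/
def w3Of (z₁ z₂ w₁ w₂ : K) : K :=
  lamOf W z₁ z₂ w₁ w₂ * z3Of W z₁ z₂ w₁ w₂ + nuOf W z₁ z₂ w₁ w₂

/-- `z` of the negative of the point `(z,w)` -/
def negZ (z w : K) : K := -z / (1 - W.a₁ * z - W.a₃ * w)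

/-- the group law in the parameter `z` -/
def Fz (z₁ z₂ w₁ w₂ : K) : K := negZ W (z3Of W z₁ z₂ w₁ w₂) (w3Of W z₁ z₂ w₁ w₂)

variable {W}

/-! ### valuations -/

/-- all the valuation facts about the formulas, for `z_i, w_i` small. -/
theorem val_law (hW : IntegralModel v W) {t : Γ₀} (ht : t < 1) {z₁ z₂ w₁ w₂ : K}
    (sz₁ : Sm v t 1 z₁) (sz₂ : Sm v t 1 z₂) (sw₁ : Sm v t 3 w₁) (sw₂ : Sm v t 3 w₂) :
    v (chordU W.a₁ W.a₂ W.a₃ W.a₄ W.a₆ z₁ w₁ w₂) = 1 ∧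
    Sm v t 2 (lamOf W z₁ z₂ w₁ w₂) ∧ Sm v t 3 (nuOf W z₁ z₂ w₁ w₂) ∧
    v (cThree W.a₂ W.a₄ W.a₆ (lamOf W z₁ z₂ w₁ w₂)) = 1 ∧
    Sm v t 2 (cTwo W.a₁ W.a₂ W.a₃ W.a₄ W.a₆ (lamOf W z₁ z₂ w₁ w₂) (nuOf W z₁ z₂ w₁ w₂)) ∧
    Sm v t 1 (z3Of W z₁ z₂ w₁ w₂) ∧ Sm v t 3 (w3Of W z₁ z₂ w₁ w₂) ∧
    v (1 - W.a₁ * z3Of W z₁ z₂ w₁ w₂ - W.a₃ * w3Of W z₁ z₂ w₁ w₂) = 1 := by
  have ht1 : t ≤ 1 := ht.le
  have hU : v (chordU W.a₁ W.a₂ W.a₃ W.a₄ W.a₆ z₁ w₁ w₂) = 1 :=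
    val_chordU hW.a₁ hW.a₂ hW.a₃ hW.a₄ hW.a₆ ht sz₁ (sw₁.mono ht1 (by norm_num))
      (sw₂.mono ht1 (by norm_num))
  have hU0 : chordU W.a₁ W.a₂ W.a₃ W.a₄ W.a₆ z₁ w₁ w₂ ≠ 0 := by
    intro h0; rw [h0, map_zero] at hU; exact zero_ne_one hU
  have hlam : lamOf W z₁ z₂ w₁ w₂ * chordU W.a₁ W.a₂ W.a₃ W.a₄ W.a₆ z₁ w₁ w₂ =
      chordN W.a₁ W.a₂ W.a₄ z₁ z₂ w₂ := by
    unfold lamOf; rw [div_mul_cancel₀ _ hU0]
  obtain ⟨slam, snu, hc3, sc2⟩ := val_core hW.a₁ hW.a₂ hW.a₃ hW.a₄ hW.a₆ ht sz₁ sw₁ sz₂ sw₂ hlam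
    (rfl : nuOf W z₁ z₂ w₁ w₂ = w₁ - lamOf W z₁ z₂ w₁ w₂ * z₁)
  have sq : Sm v t 2 (cTwo W.a₁ W.a₂ W.a₃ W.a₄ W.a₆ (lamOf W z₁ z₂ w₁ w₂) (nuOf W z₁ z₂ w₁ w₂) /
      cThree W.a₂ W.a₄ W.a₆ (lamOf W z₁ z₂ w₁ w₂)) := by
    unfold Sm; rw [map_div₀, hc3, div_one]; exact sc2
  have sz₃ : Sm v t 1 (z3Of W z₁ z₂ w₁ w₂) := by
    unfold z3Of
    exact (sz₁.neg.sub sz₂).sub (sq.mono ht1 (by norm_num))
  have sw₃ : Sm v t 3 (w3Of W z₁ z₂ w₁ w₂) := by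
    unfold w3Of
    exact ((slam.mul sz₃).mono ht1 (by norm_num)).add snu
  refine ⟨hU, slam, snu, hc3, sc2, sz₃, sw₃, ?_⟩
  have e : 1 - W.a₁ * z3Of W z₁ z₂ w₁ w₂ - W.a₃ * w3Of W z₁ z₂ w₁ w₂ =
      1 - (W.a₁ * z3Of W z₁ z₂ w₁ w₂ + W.a₃ * w3Of W z₁ z₂ w₁ w₂) := by ring
  rw [e]
  apply val_one_sub_of_sm ht (k := 1) one_pos
  refine Sm.add ?_ ?_
  · exact ((Sm.of_int hW.a₁).mul sz₃).mono ht1 (by norm_num)
  · exact ((Sm.of_int hW.a₃).mul sw₃).mono ht1 (by norm_num)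

/-- the three denominators are `≡ 1` modulo the maximal ideal. -/
theorem val_law_sub (hW : IntegralModel v W) {t : Γ₀} (ht : t < 1) {z₁ z₂ w₁ w₂ : K}
    (sz₁ : Sm v t 1 z₁) (sz₂ : Sm v t 1 z₂) (sw₁ : Sm v t 3 w₁) (sw₂ : Sm v t 3 w₂) :
    v (1 - chordU W.a₁ W.a₂ W.a₃ W.a₄ W.a₆ z₁ w₁ w₂) < 1 ∧
    v (1 - cThree W.a₂ W.a₄ W.a₆ (lamOf W z₁ z₂ w₁ w₂)) < 1 ∧
    v (1 - (1 - W.a₁ * z3Of W z₁ z₂ w₁ w₂ - W.a₃ * w3Of W z₁ z₂ w₁ w₂)) < 1 := by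
  have ht1 : t ≤ 1 := ht.le
  obtain ⟨-, slam, -, -, -, sz₃, sw₃, -⟩ := val_law hW ht sz₁ sz₂ sw₁ sw₂
  have i₁ : Sm v t 0 W.a₁ := Sm.of_int hW.a₁
  have i₂ : Sm v t 0 W.a₂ := Sm.of_int hW.a₂
  have i₃ : Sm v t 0 W.a₃ := Sm.of_int hW.a₃
  have i₄ : Sm v t 0 W.a₄ := Sm.of_int hW.a₄
  have i₆ : Sm v t 0 W.a₆ := Sm.of_int hW.a₆
  have sw₁' : Sm v t 1 w₁ := sw₁.mono ht1 (by norm_num)
  have sw₂' : Sm v t 1 w₂ := sw₂.mono ht1 (by norm_num)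
  have key : ∀ {x : K}, Sm v t 1 x → v x < 1 := fun {x} hx => by
    have := hx.le
    rw [pow_one] at this
    exact lt_of_le_of_lt this ht
  refine ⟨key ?_, key ?_, key ?_⟩
  · have e : 1 - chordU W.a₁ W.a₂ W.a₃ W.a₄ W.a₆ z₁ w₁ w₂ = W.a₁ * z₁ + W.a₂ * z₁ ^ 2 +
        W.a₃ * (w₁ + w₂) + W.a₄ * z₁ * (w₁ + w₂) + W.a₆ * (w₁ ^ 2 + w₁ * w₂ + w₂ ^ 2) := by
      unfold chordU; ring
    rw [e]
    refine Sm.add (Sm.add (Sm.add (Sm.add ?_ ?_) ?_) ?_) ?_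
    · exact (i₁.mul sz₁).mono ht1 (by norm_num)
    · exact (i₂.mul (sz₁.pow 2)).mono ht1 (by norm_num)
    · exact (i₃.mul (sw₁'.add sw₂')).mono ht1 (by norm_num)
    · exact ((i₄.mul sz₁).mul (sw₁'.add sw₂')).mono ht1 (by norm_num)
    · have s : Sm v t 1 (w₁ ^ 2 + w₁ * w₂ + w₂ ^ 2) := by
        refine Sm.add (Sm.add ?_ ?_) ?_
        · exact (sw₁'.pow 2).mono ht1 (by norm_num)
        · exact (sw₁'.mul sw₂').mono ht1 (by norm_num)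
        · exact (sw₂'.pow 2).mono ht1 (by norm_num)
      exact (i₆.mul s).mono ht1 (by norm_num)
  · have e : 1 - cThree W.a₂ W.a₄ W.a₆ (lamOf W z₁ z₂ w₁ w₂) =
        -(W.a₂ * lamOf W z₁ z₂ w₁ w₂ + W.a₄ * lamOf W z₁ z₂ w₁ w₂ ^ 2 +
          W.a₆ * lamOf W z₁ z₂ w₁ w₂ ^ 3) := by
      unfold cThree; ring
    rw [e]
    refine Sm.neg (Sm.add (Sm.add ?_ ?_) ?_)
    · exact (i₂.mul slam).mono ht1 (by norm_num)
    · exact (i₄.mul (slam.pow 2)).mono ht1 (by norm_num)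
    · exact (i₆.mul (slam.pow 3)).mono ht1 (by norm_num)
  · have e : 1 - (1 - W.a₁ * z3Of W z₁ z₂ w₁ w₂ - W.a₃ * w3Of W z₁ z₂ w₁ w₂) =
        W.a₁ * z3Of W z₁ z₂ w₁ w₂ + W.a₃ * w3Of W z₁ z₂ w₁ w₂ := by ring
    rw [e]
    refine Sm.add ?_ ?_
    · exact (i₁.mul sz₃).mono ht1 (by norm_num)
    · exact (i₃.mul sw₃).mono ht1 (by norm_num)

/-! ### the generic case: chord or tangent through two affine points of `E₁` -/

theorem lamOf_eq {z₁ z₂ w₁ w₂ lam : K}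
    (hU : chordU W.a₁ W.a₂ W.a₃ W.a₄ W.a₆ z₁ w₁ w₂ ≠ 0)
    (hlam : lam * chordU W.a₁ W.a₂ W.a₃ W.a₄ W.a₆ z₁ w₁ w₂ = chordN W.a₁ W.a₂ W.a₄ z₁ z₂ w₂) :
    lamOf W z₁ z₂ w₁ w₂ = lam := by
  unfold lamOf
  rw [div_eq_iff hU, hlam]

/-- **the group law, generic case.** -/
theorem add_formula [DecidableEq K] (hW : IntegralModel v W) {x₁ x₂ y₁ y₂ : K}
    (h₁ : W.Equation x₁ y₁) (h₂ : W.Equation x₂ y₂) (hx₁ : 1 < v x₁) (hx₂ : 1 < v x₂)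
    (hxy : ¬(x₁ = x₂ ∧ y₁ = W.negY x₂ y₂)) :
    -(W.addX x₁ x₂ (W.slope x₁ x₂ y₁ y₂)) / (W.addY x₁ x₂ y₁ (W.slope x₁ x₂ y₁ y₂)) =
      Fz W (-x₁ / y₁) (-x₂ / y₂) (-1 / y₁) (-1 / y₂) := by
  have hy₁ := y_ne_zero_of_one_lt hW h₁ hx₁
  have hy₂ := y_ne_zero_of_one_lt hW h₂ hx₂
  have hz₁ : v (-x₁ / y₁) < 1 := by
    rw [neg_div, Valuation.map_neg]; exact val_z_lt_one hW h₁ hx₁
  have hz₂ : v (-x₂ / y₂) < 1 := by
    rw [neg_div, Valuation.map_neg]; exact val_z_lt_one hW h₂ hx₂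
  obtain ⟨t, htdef⟩ : ∃ t : Γ₀, t = max (v (-x₁ / y₁)) (v (-x₂ / y₂)) := ⟨_, rfl⟩
  have ht : t < 1 := by rw [htdef]; exact max_lt hz₁ hz₂
  have ht1 : t ≤ 1 := ht.le
  have hzt₁ : v (-x₁ / y₁) ≤ t := by rw [htdef]; exact le_max_left _ _
  have hzt₂ : v (-x₂ / y₂) ≤ t := by rw [htdef]; exact le_max_right _ _
  obtain ⟨h1x₃, -⟩ := add_estimate hW h₁ h₂ hx₁ hx₂ hxy ht hzt₁ hzt₂
  obtain ⟨ℓ, hℓ⟩ : ∃ ℓ, ℓ = W.slope x₁ x₂ y₁ y₂ := ⟨_, rfl⟩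
  obtain ⟨μ, hμ⟩ : ∃ μ, μ = y₁ - ℓ * x₁ := ⟨_, rfl⟩
  obtain ⟨x₃, hx₃⟩ : ∃ x₃, x₃ = W.addX x₁ x₂ ℓ := ⟨_, rfl⟩
  rw [← hℓ, ← hx₃] at h1x₃ ⊢
  have sz₁ : Sm v t 1 (-x₁ / y₁) := sm_one_of_le hzt₁
  have sz₂ : Sm v t 1 (-x₂ / y₂) := sm_one_of_le hzt₂
  have sw₁ : Sm v t 3 (-1 / y₁) := by
    unfold Sm
    have hw := val_w hW h₁ hx₁
    have hz : v (x₁ / y₁) ≤ t := by rwa [neg_div, Valuation.map_neg] at hzt₁
    rw [neg_div, Valuation.map_neg, hw]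
    exact pow_le_pow_left₀ zero_le hz 3
  have sw₂ : Sm v t 3 (-1 / y₂) := by
    unfold Sm
    have hw := val_w hW h₂ hx₂
    have hz : v (x₂ / y₂) ≤ t := by rwa [neg_div, Valuation.map_neg] at hzt₂
    rw [neg_div, Valuation.map_neg, hw]
    exact pow_le_pow_left₀ zero_le hz 3
  obtain ⟨hUval, -, -, hc3, -, -, -, -⟩ := val_law hW ht sz₁ sz₂ sw₁ sw₂
  have hU0 : chordU W.a₁ W.a₂ W.a₃ W.a₄ W.a₆ (-x₁ / y₁) (-1 / y₁) (-1 / y₂) ≠ 0 := by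
    intro h0; rw [h0, map_zero] at hUval; exact zero_ne_one hUval
  obtain ⟨hμ0, hlam⟩ := key_lambda W h₁ h₂ hxy hy₁ hy₂ ℓ μ hℓ hμ hU0
  have elam : lamOf W (-x₁ / y₁) (-x₂ / y₂) (-1 / y₁) (-1 / y₂) = -ℓ / μ := lamOf_eq hU0 hlam
  have enu : nuOf W (-x₁ / y₁) (-x₂ / y₂) (-1 / y₁) (-1 / y₂) = -1 / μ := by
    unfold nuOf
    rw [elam]
    field_simp
    linear_combination (-1) * hμ
  rw [elam] at hc3
  -- Vieta and the line lemma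
  obtain ⟨V1, V2, V3⟩ := vieta_mu W h₁ h₂ hxy ℓ μ x₃ hℓ hμ hx₃
  have hY₂ : y₂ = ℓ * x₂ + μ := snd_on_line W h₁ h₂ hxy ℓ μ hℓ hμ
  have hY₁ : y₁ = ℓ * x₁ + μ := by rw [hμ]; ring
  have hden := line_den W.a₁ W.a₂ W.a₃ W.a₄ W.a₆ V1 V2 V3
  have hc3mul := cThree_mul W.a₂ W.a₄ W.a₆ ℓ μ hμ0
  have hc30 : cThree W.a₂ W.a₄ W.a₆ (-ℓ / μ) ≠ 0 := by
    intro h0; rw [h0, map_zero] at hc3; exact zero_ne_one hc3
  have hY₃ : ℓ * x₃ + μ ≠ 0 := by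
    intro h0
    rw [h0, mul_zero, ← hc3mul] at hden
    exact (mul_ne_zero hc30 (pow_ne_zero 3 hμ0)) hden.symm
  have hy₁' : ℓ * x₁ + μ ≠ 0 := by rw [← hY₁]; exact hy₁
  have hy₂' : ℓ * x₂ + μ ≠ 0 := by rw [← hY₂]; exact hy₂
  have hsum := line_sum W.a₁ W.a₂ W.a₃ W.a₄ W.a₆ V1 V2 V3 hμ0 hy₁' hy₂' hY₃
  rw [← hY₁, ← hY₂] at hsum
  have ez3 : z3Of W (-x₁ / y₁) (-x₂ / y₂) (-1 / y₁) (-1 / y₂) = -x₃ / (ℓ * x₃ + μ) := by
    unfold z3Of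
    rw [elam, enu]
    linear_combination hsum
  have ew3 : w3Of W (-x₁ / y₁) (-x₂ / y₂) (-1 / y₁) (-1 / y₂) = -1 / (ℓ * x₃ + μ) := by
    unfold w3Of
    rw [elam, enu, ez3]
    field_simp
    ring
  -- the sum
  have hneg : W.negAddY x₁ x₂ y₁ ℓ = ℓ * x₃ + μ := by
    rw [negAddY_eq_line W x₁ x₂ y₁ ℓ μ hμ, hx₃]
  have h₃ : W.Equation x₃ (ℓ * x₃ + μ) := by
    have := WeierstrassCurve.Affine.equation_negAdd h₁ h₂ hxy
    rw [← hℓ, ← hx₃, hneg] at this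
    exact this
  have haddY : W.addY x₁ x₂ y₁ ℓ = W.negY x₃ (ℓ * x₃ + μ) := by
    rw [WeierstrassCurve.Affine.addY, ← hx₃, hneg]
  have h₃' : W.Equation x₃ (W.negY x₃ (ℓ * x₃ + μ)) :=
    (WeierstrassCurve.Affine.equation_neg x₃ (ℓ * x₃ + μ)).mpr h₃
  have hnY : W.negY x₃ (ℓ * x₃ + μ) ≠ 0 := y_ne_zero_of_one_lt hW h₃' h1x₃
  unfold Fz negZ
  rw [haddY, ez3, ew3]
  rw [WeierstrassCurve.Affine.negY] at hnY ⊢
  obtain ⟨Y, hYdef⟩ : ∃ Y, Y = ℓ * x₃ + μ := ⟨_, rfl⟩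
  rw [← hYdef] at hnY hY₃ ⊢
  have hD : Y + W.a₁ * x₃ + W.a₃ ≠ 0 := by
    intro h0
    apply hnY
    linear_combination (-1) * h0
  have hD' : 1 - W.a₁ * (-x₃ / Y) - W.a₃ * (-1 / Y) ≠ 0 := by
    have : 1 - W.a₁ * (-x₃ / Y) - W.a₃ * (-1 / Y) = (Y + W.a₁ * x₃ + W.a₃) / Y := by
      field_simp
      ring
    rw [this]
    exact div_ne_zero hD hY₃
  rw [div_eq_div_iff hnY hD']
  field_simp
  ring

/-! ### lines through the origin of the `(z,w)`-plane -/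

/-- the quadratic relation satisfied by `z` on the line `w = lam z` -/
theorem qrel_of_zw {z w lam : K} (e : ZW W z w) (h1 : z * lam = w) (h0 : z = 0 → lam = 0) :
    lam = z ^ 2 * cThree W.a₂ W.a₄ W.a₆ lam + z * cTwo W.a₁ W.a₂ W.a₃ W.a₄ W.a₆ lam 0 := by
  by_cases hz : z = 0
  · rw [hz, h0 hz]; ring
  · apply mul_left_cancel₀ hz
    unfold ZW ZWEq at e
    unfold cThree cTwo
    rw [← h1] at e
    linear_combination e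

/-- pure algebra: on a line through the origin, the negative of the third point is the second. -/
theorem negZ_origin {lam z : K}
    (hQ : lam = z ^ 2 * cThree W.a₂ W.a₄ W.a₆ lam + z * cTwo W.a₁ W.a₂ W.a₃ W.a₄ W.a₆ lam 0)
    (hc3 : cThree W.a₂ W.a₄ W.a₆ lam ≠ 0)
    (hD : 1 - W.a₁ * (-z - cTwo W.a₁ W.a₂ W.a₃ W.a₄ W.a₆ lam 0 / cThree W.a₂ W.a₄ W.a₆ lam) -
      W.a₃ * (lam * (-z - cTwo W.a₁ W.a₂ W.a₃ W.a₄ W.a₆ lam 0 / cThree W.a₂ W.a₄ W.a₆ lam)) ≠ 0) :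
    negZ W (-z - cTwo W.a₁ W.a₂ W.a₃ W.a₄ W.a₆ lam 0 / cThree W.a₂ W.a₄ W.a₆ lam)
      (lam * (-z - cTwo W.a₁ W.a₂ W.a₃ W.a₄ W.a₆ lam 0 / cThree W.a₂ W.a₄ W.a₆ lam)) = z := by
  obtain ⟨c₂, hc₂⟩ : ∃ c₂, c₂ = cTwo W.a₁ W.a₂ W.a₃ W.a₄ W.a₆ lam 0 := ⟨_, rfl⟩
  obtain ⟨c₃, hc₃⟩ : ∃ c₃, c₃ = cThree W.a₂ W.a₄ W.a₆ lam := ⟨_, rfl⟩
  rw [← hc₂, ← hc₃] at hQ hD ⊢
  rw [← hc₃] at hc3
  have hc2 : c₂ = W.a₁ * lam + W.a₃ * lam ^ 2 := by rw [hc₂]; unfold cTwo; ring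
  obtain ⟨z₃, hz₃⟩ : ∃ z₃, z₃ = -z - c₂ / c₃ := ⟨_, rfl⟩
  rw [← hz₃] at hD ⊢
  have h3 : c₃ * z₃ = -c₃ * z - c₂ := by rw [hz₃]; field_simp
  unfold negZ
  rw [div_eq_iff hD]
  apply mul_left_cancel₀ hc3
  linear_combination (-1 + z * (W.a₁ + W.a₃ * lam)) * h3 + (W.a₁ + W.a₃ * lam) * hQ + hc2

theorem zw_zero : ZW W (0 : K) 0 := by
  unfold ZW ZWEq; ring

/-- `Fz 0 z = z` -/
theorem Fz_zero_left (hW : IntegralModel v W) {z w : K} (hz : v z < 1) (hw : v w < 1)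
    (e : ZW W z w) : Fz W 0 z 0 w = z := by
  have hw3 : v w = v z ^ 3 := val_w_of_zw hW hz hw e
  obtain ⟨hU, -, -, hc3, -, -, -, hD⟩ := val_law hW hz (z₁ := 0) (z₂ := z) (w₁ := 0) (w₂ := w)
    Sm.zero (sm_one_of_le le_rfl) Sm.zero (by unfold Sm; rw [hw3])
  have hU0 : chordU W.a₁ W.a₂ W.a₃ W.a₄ W.a₆ 0 0 w ≠ 0 := by
    intro h0; rw [h0, map_zero] at hU; exact zero_ne_one hU
  obtain ⟨lam, hlam⟩ : ∃ lam, lam = lamOf W 0 z 0 w := ⟨_, rfl⟩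
  have hnu : nuOf W 0 z 0 w = 0 := by unfold nuOf; ring
  have hz3 : z3Of W 0 z 0 w = -z - cTwo W.a₁ W.a₂ W.a₃ W.a₄ W.a₆ lam 0 / cThree W.a₂ W.a₄ W.a₆ lam := by
    unfold z3Of; rw [hnu, ← hlam]; ring
  have hw3' : w3Of W 0 z 0 w = lam * z3Of W 0 z 0 w := by
    unfold w3Of; rw [hnu, ← hlam]; ring
  have hcf := chord_factor W.a₁ W.a₂ W.a₃ W.a₄ W.a₆ (zw_zero (W := W)) e
  have h1 : z * lam = w := by
    rw [hlam]; unfold lamOf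
    field_simp
    linear_combination (-1) * hcf
  have h0 : z = 0 → lam = 0 := by
    intro hz0
    have hw0 : w = 0 := (w_eq_zero_iff hW hz hw e).mpr hz0
    rw [hlam]; unfold lamOf chordN
    rw [hz0, hw0]; simp
  have hQ := qrel_of_zw e h1 h0
  rw [← hlam] at hc3
  have hc30 : cThree W.a₂ W.a₄ W.a₆ lam ≠ 0 := by
    intro h; rw [h, map_zero] at hc3; exact zero_ne_one hc3
  have hD0 : 1 - W.a₁ * z3Of W 0 z 0 w - W.a₃ * w3Of W 0 z 0 w ≠ 0 := by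
    intro h; rw [h, map_zero] at hD; exact zero_ne_one hD
  unfold Fz
  rw [hw3'] at hD0 ⊢
  rw [hz3] at hD0 ⊢
  exact negZ_origin hQ hc30 hD0

/-- `Fz z 0 = z` -/
theorem Fz_zero_right (hW : IntegralModel v W) {z w : K} (hz : v z < 1) (hw : v w < 1)
    (e : ZW W z w) : Fz W z 0 w 0 = z := by
  have hw3 : v w = v z ^ 3 := val_w_of_zw hW hz hw e
  obtain ⟨hU, -, -, hc3, -, -, -, hD⟩ := val_law hW hz (z₁ := z) (z₂ := 0) (w₁ := w) (w₂ := 0)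
    (sm_one_of_le le_rfl) Sm.zero (by unfold Sm; rw [hw3]) Sm.zero
  have hU0 : chordU W.a₁ W.a₂ W.a₃ W.a₄ W.a₆ z w 0 ≠ 0 := by
    intro h0; rw [h0, map_zero] at hU; exact zero_ne_one hU
  obtain ⟨lam, hlam⟩ : ∃ lam, lam = lamOf W z 0 w 0 := ⟨_, rfl⟩
  have hcf := chord_factor W.a₁ W.a₂ W.a₃ W.a₄ W.a₆ e (zw_zero (W := W))
  have h1 : z * lam = w := by
    rw [hlam]; unfold lamOf
    field_simp
    linear_combination hcf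
  have hnu : nuOf W z 0 w 0 = 0 := by
    unfold nuOf; rw [← hlam]; linear_combination (-1) * h1
  have hz3 : z3Of W z 0 w 0 = -z - cTwo W.a₁ W.a₂ W.a₃ W.a₄ W.a₆ lam 0 / cThree W.a₂ W.a₄ W.a₆ lam := by
    unfold z3Of; rw [hnu, ← hlam]; ring
  have hw3' : w3Of W z 0 w 0 = lam * z3Of W z 0 w 0 := by
    unfold w3Of; rw [hnu, ← hlam]; ring
  have h0 : z = 0 → lam = 0 := by
    intro hz0
    rw [hlam]; unfold lamOf chordN
    rw [hz0]; simp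
  have hQ := qrel_of_zw e h1 h0
  rw [← hlam] at hc3
  have hc30 : cThree W.a₂ W.a₄ W.a₆ lam ≠ 0 := by
    intro h; rw [h, map_zero] at hc3; exact zero_ne_one hc3
  have hD0 : 1 - W.a₁ * z3Of W z 0 w 0 - W.a₃ * w3Of W z 0 w 0 ≠ 0 := by
    intro h; rw [h, map_zero] at hD; exact zero_ne_one hD
  unfold Fz
  rw [hw3'] at hD0 ⊢
  rw [hz3] at hD0 ⊢
  exact negZ_origin hQ hc30 hD0

/-! ### opposite points -/

/-- `Fz` vanishes on a pair of opposite points (`2` a unit, so that `P ≠ -P` on `E₁ ∖ 0`). -/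
theorem Fz_neg (hW : IntegralModel v W) (h2 : v (2 : K) = 1) {x y₁ y₂ : K}
    (h₁ : W.Equation x y₁) (h₂ : W.Equation x y₂) (hx : 1 < v x) (hy : y₁ = W.negY x y₂) :
    Fz W (-x / y₁) (-x / y₂) (-1 / y₁) (-1 / y₂) = 0 := by
  have hy₁ := y_ne_zero_of_one_lt hW h₁ hx
  have hy₂ := y_ne_zero_of_one_lt hW h₂ hx
  have hx0 : x ≠ 0 := by
    rintro rfl
    rw [map_zero] at hx
    exact absurd hx (not_lt.mpr zero_le)
  have hz₁ : v (-x / y₁) < 1 := by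
    rw [neg_div, Valuation.map_neg]; exact val_z_lt_one hW h₁ hx
  have hz₂ : v (-x / y₂) < 1 := by
    rw [neg_div, Valuation.map_neg]; exact val_z_lt_one hW h₂ hx
  -- `y₁ ≠ y₂`
  have hyy : y₁ ≠ y₂ := by
    intro h
    have hlt := (val_y_of_one_lt hW h₂ hx).1
    have hax : v (W.a₁ * x + W.a₃) ≤ v x := by
      refine v.map_add_le ?_ (le_trans hW.a₃ hx.le)
      rw [map_mul]
      calc v W.a₁ * v x ≤ 1 * v x := mul_le_mul' hW.a₁ le_rfl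
        _ = v x := one_mul _
    have h0 : 2 * y₂ = -(W.a₁ * x + W.a₃) := by
      rw [h, WeierstrassCurve.Affine.negY] at hy
      linear_combination hy
    have := congrArg v h0
    rw [map_mul, h2, one_mul, Valuation.map_neg] at this
    rw [this] at hlt
    exact absurd hlt (not_lt.mpr hax)
  obtain ⟨t, htdef⟩ : ∃ t : Γ₀, t = max (v (-x / y₁)) (v (-x / y₂)) := ⟨_, rfl⟩
  have ht : t < 1 := by rw [htdef]; exact max_lt hz₁ hz₂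
  have hzt₁ : v (-x / y₁) ≤ t := by rw [htdef]; exact le_max_left _ _
  have hzt₂ : v (-x / y₂) ≤ t := by rw [htdef]; exact le_max_right _ _
  have sw₁ : Sm v t 3 (-1 / y₁) := by
    unfold Sm
    have hw := val_w hW h₁ hx
    have hz : v (x / y₁) ≤ t := by rwa [neg_div, Valuation.map_neg] at hzt₁
    rw [neg_div, Valuation.map_neg, hw]
    exact pow_le_pow_left₀ zero_le hz 3
  have sw₂ : Sm v t 3 (-1 / y₂) := by
    unfold Sm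
    have hw := val_w hW h₂ hx
    have hz : v (x / y₂) ≤ t := by rwa [neg_div, Valuation.map_neg] at hzt₂
    rw [neg_div, Valuation.map_neg, hw]
    exact pow_le_pow_left₀ zero_le hz 3
  obtain ⟨hU, -, -, hc3, -, -, -, -⟩ := val_law hW ht (sm_one_of_le hzt₁) (sm_one_of_le hzt₂) sw₁ sw₂
  have hU0 : chordU W.a₁ W.a₂ W.a₃ W.a₄ W.a₆ (-x / y₁) (-1 / y₁) (-1 / y₂) ≠ 0 := by
    intro h0; rw [h0, map_zero] at hU; exact zero_ne_one hU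
  have e₁ := zw_equation W h₁ hy₁
  have e₂ := zw_equation W h₂ hy₂
  have hcf := chord_factor W.a₁ W.a₂ W.a₃ W.a₄ W.a₆ e₁ e₂
  -- the slope is `1 / x`
  have elam : lamOf W (-x / y₁) (-x / y₂) (-1 / y₁) (-1 / y₂) = 1 / x := by
    apply lamOf_eq hU0
    have hzz : -x / y₂ - -x / y₁ ≠ 0 := by
      intro h
      apply hyy
      field_simp at h
      have : x * (y₂ - y₁) = 0 := by linear_combination h
      rcases mul_eq_zero.mp this with h' | h'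
      · exact absurd h' hx0
      · exact (sub_eq_zero.mp h').symm
    apply mul_left_cancel₀ hzz
    rw [← hcf]
    field_simp
  obtain ⟨lam, hlam⟩ : ∃ lam, lam = lamOf W (-x / y₁) (-x / y₂) (-1 / y₁) (-1 / y₂) := ⟨_, rfl⟩
  rw [← hlam] at elam hc3
  have enu : nuOf W (-x / y₁) (-x / y₂) (-1 / y₁) (-1 / y₂) = 0 := by
    unfold nuOf; rw [← hlam, elam]; field_simp; ring
  have hc30 : cThree W.a₂ W.a₄ W.a₆ lam ≠ 0 := by
    intro h; rw [h, map_zero] at hc3; exact zero_ne_one hc3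
  have hz₁0 : -x / y₁ ≠ 0 := div_ne_zero (neg_ne_zero.mpr hx0) hy₁
  have hz₂0 : -x / y₂ ≠ 0 := div_ne_zero (neg_ne_zero.mpr hx0) hy₂
  have hQ₁ := qrel_of_zw (W := W) (z := -x / y₁) (w := -1 / y₁) (lam := lam) e₁
    (by rw [elam]; field_simp) (fun h => absurd h hz₁0)
  have hQ₂ := qrel_of_zw (W := W) (z := -x / y₂) (w := -1 / y₂) (lam := lam) e₂
    (by rw [elam]; field_simp) (fun h => absurd h hz₂0)
  have hzne : -x / y₁ - -x / y₂ ≠ 0 := by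
    intro h
    apply hyy
    field_simp at h
    have : x * (y₁ - y₂) = 0 := by linear_combination h
    rcases mul_eq_zero.mp this with h' | h'
    · exact absurd h' hx0
    · exact sub_eq_zero.mp h'
  have hsum : (-x / y₁ + -x / y₂) * cThree W.a₂ W.a₄ W.a₆ lam +
      cTwo W.a₁ W.a₂ W.a₃ W.a₄ W.a₆ lam 0 = 0 := by
    apply mul_left_cancel₀ hzne
    linear_combination hQ₂ - hQ₁
  have hz3 : z3Of W (-x / y₁) (-x / y₂) (-1 / y₁) (-1 / y₂) = 0 := by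
    unfold z3Of
    rw [enu, ← hlam]
    have h : cTwo W.a₁ W.a₂ W.a₃ W.a₄ W.a₆ lam 0 =
        -((-x / y₁ + -x / y₂) * cThree W.a₂ W.a₄ W.a₆ lam) := by linear_combination hsum
    rw [h]
    have h' : -((-x / y₁ + -x / y₂) * cThree W.a₂ W.a₄ W.a₆ lam) / cThree W.a₂ W.a₄ W.a₆ lam =
        -(-x / y₁ + -x / y₂) := by
      rw [neg_div, mul_div_assoc, div_self hc30, mul_one]
    rw [h']
    ring
  unfold Fz negZ
  rw [hz3]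
  simp

/-! ### the main formulas -/

/-- the `w`-coordinate `-1/y` of a point (`0` at the origin) -/
def wc : W.Point → K
  | .zero => 0
  | .some _ y _ => -1 / y

@[simp] theorem wc_zero : wc (0 : W.Point) = 0 := rfl

@[simp] theorem wc_some {x y : K} (h : W.Nonsingular x y) : wc (Affine.Point.some x y h) = -1 / y :=
  rfl

theorem val_wc (hW : IntegralModel v W) {P : W.Point} (hP : InE1 v W P) :
    v (wc P) = v (zc P) ^ 3 := by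
  rcases P with _ | ⟨x, y, h⟩
  · show v (0 : K) = v (0 : K) ^ 3
    rw [map_zero]; norm_num
  · rw [wc_some, zc_some, neg_div, Valuation.map_neg, neg_div, Valuation.map_neg]
    exact val_w hW h.1 hP

theorem zw_of_inE1 (hW : IntegralModel v W) {P : W.Point} (hP : InE1 v W P) :
    ZW W (zc P) (wc P) := by
  rcases P with _ | ⟨x, y, h⟩
  · exact zw_zero
  · exact zw_equation W h.1 (y_ne_zero_of_one_lt hW h.1 hP)

/-- **the group law of `E₁` in the parameter `z`.** -/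
theorem zc_add [DecidableEq K] (hW : IntegralModel v W) (h2 : v (2 : K) = 1) {P Q : W.Point}
    (hP : InE1 v W P) (hQ : InE1 v W Q) :
    zc (P + Q) = Fz W (zc P) (zc Q) (wc P) (wc Q) := by
  have hzP := val_zc_lt hW hP
  have hzQ := val_zc_lt hW hQ
  have hwP : v (wc P) < 1 := by
    rw [val_wc hW hP]; exact pow_lt_one₀ zero_le hzP (by norm_num)
  have hwQ : v (wc Q) < 1 := by
    rw [val_wc hW hQ]; exact pow_lt_one₀ zero_le hzQ (by norm_num)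
  rcases P with _ | ⟨x₁, y₁, h₁⟩
  · have e : (Affine.Point.zero : W.Point) + Q = Q := zero_add Q
    rw [e]
    exact (Fz_zero_left hW hzQ hwQ (zw_of_inE1 hW hQ)).symm
  rcases Q with _ | ⟨x₂, y₂, h₂⟩
  · have e : Affine.Point.some x₁ y₁ h₁ + (Affine.Point.zero : W.Point) =
        Affine.Point.some x₁ y₁ h₁ := add_zero _
    rw [e]
    exact (Fz_zero_right hW hzP hwP (zw_of_inE1 hW hP)).symm
  have hx₁ : 1 < v x₁ := hP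
  have hx₂ : 1 < v x₂ := hQ
  by_cases hxy : x₁ = x₂ ∧ y₁ = W.negY x₂ y₂
  · rw [Affine.Point.add_of_Y_eq hxy.1 hxy.2]
    obtain ⟨rfl, hy⟩ := hxy
    exact (Fz_neg hW h2 h₁.1 h₂.1 hx₁ hy).symm
  · rw [Affine.Point.add_some hxy]
    exact add_formula hW h₁.1 h₂.1 hx₁ hx₂ hxy

/-- **negation in the parameter `z`.** -/
theorem zc_neg (hW : IntegralModel v W) {P : W.Point} (hP : InE1 v W P) :
    zc (-P) = negZ W (zc P) (wc P) := by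
  rcases P with _ | ⟨x, y, h⟩
  · show (0 : K) = negZ W 0 0
    unfold negZ; simp
  · have hy := y_ne_zero_of_one_lt hW h.1 hP
    rw [Affine.Point.neg_some, zc_some, zc_some, wc_some]
    unfold negZ
    have h' : W.Equation x (W.negY x y) := (WeierstrassCurve.Affine.equation_neg x y).mpr h.1
    have hy' := y_ne_zero_of_one_lt hW h' hP
    rw [WeierstrassCurve.Affine.negY] at hy' ⊢
    have hD : 1 - W.a₁ * (-x / y) - W.a₃ * (-1 / y) ≠ 0 := by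
      have : 1 - W.a₁ * (-x / y) - W.a₃ * (-1 / y) = -(-y - W.a₁ * x - W.a₃) / y := by
        field_simp
        ring
      rw [this]
      exact div_ne_zero (neg_ne_zero.mpr hy') hy
    rw [div_eq_div_iff hy' hD]
    field_simp
    ring

end Fermat.Agent.S59lib.Flat
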