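/-
S59lib / Flat / An  (helper9) — Project I, block C2.

Analyticity (in the sense of `S19lib.AnalyticOn A R ϖ`) of the Weierstrass formal group:
`z ↦ w(z)`, `(z₁,z₂) ↦ Fz z₁ z₂ (w z₁) (w z₂)` and `z ↦ negZ z (w z)`.
-/
import Fermat.Agent.S19lib.An.CalcNewton
import Fermat.Agent.S59lib.Flat.Law

set_option autoImplicit false

noncomputable section

namespace Fermat.Agent.S59lib.Flat

open Fermat.Agent.S19lib Fermat.Agent.S19lib.An Fermat.Agent.S05lib

variable {L : Type*} [Field L] (A : ValuationSubring L) (R : Subring L)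

/-- the standing hypotheses on the coefficient ring `R ⊆ A` and the "uniformiser" `ϖ`. -/
structure Coef (ϖ : L) : Prop where
  hR : R ≤ A.toSubring
  hϖ : A.valuation ϖ < 1
  hε : ∀ ε ∈ R, A.valuation ε < 1 → A.valuation ε ≤ A.valuation ϖ
  hRinv : ∀ r ∈ R, A.valuation r = 1 → r⁻¹ ∈ R
  /-- an intermediate radius -/
  hr : ∃ r : L, A.valuation ϖ < A.valuation r ∧ A.valuation r < 1

variable {A R} {ϖ : L} (C : Coef A R ϖ) {ι : Type*} [Finite ι]
include C

theorem Coef.mem : ϖ ∈ A := A.mem_of_valuation_le_one _ (le_of_lt C.hϖ)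

/-! ### wrappers for the calculus -/

theorem an_const {a : L} (ha : a ∈ R) : AnalyticOn A R ϖ (fun _ : ι → L => a) :=
  analyticOn_const A R C.hR C.mem ha

theorem an_coord (i : ι) : AnalyticOn A R ϖ (fun u : ι → L => u i) :=
  analyticOn_coord A R C.hR C.mem i

theorem an_add {f g : (ι → L) → L} (hf : AnalyticOn A R ϖ f) (hg : AnalyticOn A R ϖ g) :
    AnalyticOn A R ϖ (fun u => f u + g u) := analyticOn_add A R C.hR C.mem hf hg

theorem an_sub {f g : (ι → L) → L} (hf : AnalyticOn A R ϖ f) (hg : AnalyticOn A R ϖ g) :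
    AnalyticOn A R ϖ (fun u => f u - g u) := analyticOn_sub A R C.hR C.mem hf hg

theorem an_neg {f : (ι → L) → L} (hf : AnalyticOn A R ϖ f) :
    AnalyticOn A R ϖ (fun u => - f u) := analyticOn_neg A R C.hR C.mem hf

theorem an_mul {f g : (ι → L) → L} (hf : AnalyticOn A R ϖ f) (hg : AnalyticOn A R ϖ g) :
    AnalyticOn A R ϖ (fun u => f u * g u) := analyticOn_mul A R C.hR C.mem hf hg

theorem an_pow {f : (ι → L) → L} (hf : AnalyticOn A R ϖ f) (n : ℕ) :
    AnalyticOn A R ϖ (fun u => f u ^ n) := analyticOn_pow A R C.hR C.mem hf n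

theorem an_cmul {a : L} (ha : a ∈ R) {f : (ι → L) → L} (hf : AnalyticOn A R ϖ f) :
    AnalyticOn A R ϖ (fun u => a * f u) := analyticOn_const_mul A R C.hR C.mem hf ha

omit C [Finite ι] in
theorem zero_mem_polyDisc : (0 : ι → L) ∈ PolyDisc A ι := fun _ => by
  rw [Pi.zero_apply, map_zero]; exact zero_lt_one

/-- **inverse of a function `≡ 1`.** -/
theorem an_inv {g : (ι → L) → L} (hg : AnalyticOn A R ϖ g)
    (hg1 : ∀ u ∈ PolyDisc A ι, A.valuation (1 - g u) < 1) :
    AnalyticOn A R ϖ (fun u => (g u)⁻¹) := by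
  -- units
  have hgu : ∀ u ∈ PolyDisc A ι, A.valuation (g u) = 1 := by
    intro u hu
    have e : g u = 1 - (1 - g u) := by ring
    rw [e]
    exact Valuation.map_one_sub_of_lt _ (hg1 u hu)
  have hg0 : ∀ u ∈ PolyDisc A ι, g u ≠ 0 := by
    intro u hu h0
    have := hgu u hu
    rw [h0, map_zero] at this
    exact zero_ne_one this
  -- ψ = g⁻¹ - 1 is the root of S(T; u) = (1 + T) g(u) - 1
  have hS : AnalyticOn A R ϖ (fun y : Option ι → L =>
      (1 + y none) * g (fun k => y (some k)) - 1) := by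
    have hg' : AnalyticOn A R ϖ (fun y : Option ι → L => g (fun k => y (some k))) :=
      analyticOn_reindex A R C.hR C.hϖ C.hε hg (fun k : ι => (some k : Option ι))
    exact an_sub C (an_mul C (an_add C (an_const C R.one_mem) (an_coord C none)) hg')
      (an_const C R.one_mem)
  have hψ : AnalyticOn A R ϖ (fun u : ι → L => (g u)⁻¹ - 1) := by
    refine analyticOn_implicit A R C.hR C.hϖ C.hε C.hRinv hS (fun u hu => ?_) (fun u hu => ?_) ?_
    · have e : (g u)⁻¹ - 1 = (1 - g u) / g u := by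
        have := hg0 u hu
        field_simp
      rw [e, map_div₀, hgu u hu, div_one]
      exact hg1 u hu
    · have := hg0 u hu
      show (1 + oconsL ((g u)⁻¹ - 1) u none) * g (fun k => oconsL ((g u)⁻¹ - 1) u (some k)) - 1 = 0
      have e1 : oconsL ((g u)⁻¹ - 1) u none = (g u)⁻¹ - 1 := rfl
      have e2 : (fun k => oconsL ((g u)⁻¹ - 1) u (some k)) = u := rfl
      rw [e1, e2]
      field_simp
      ring
    · obtain ⟨r, hr1, hr2⟩ := C.hr
      refine ⟨r, g 0, hr1, hr2, hgu 0 zero_mem_polyDisc, ?_⟩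
      have e1 : oconsL r (0 : ι → L) none = r := rfl
      have e2 : (fun k => oconsL r (0 : ι → L) (some k)) = 0 := rfl
      have e3 : oconsL (0 : L) (0 : ι → L) none = 0 := rfl
      have e4 : (fun k => oconsL (0 : L) (0 : ι → L) (some k)) = 0 := rfl
      show A.valuation ((1 + oconsL r (0 : ι → L) none) * g (fun k => oconsL r (0 : ι → L) (some k))
        - 1 - ((1 + oconsL (0 : L) (0 : ι → L) none) *
          g (fun k => oconsL (0 : L) (0 : ι → L) (some k)) - 1) - g 0 * r) ≤ _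
      rw [e1, e2, e3, e4]
      have : (1 + r) * g 0 - 1 - ((1 + 0) * g 0 - 1) - g 0 * r = 0 := by ring
      rw [this, map_zero]
      exact zero_le
  exact (an_add C hψ (an_const C R.one_mem)).congr A (fun u _ => by ring)

/-! ### the curve -/

omit C [Finite ι] in
/-- the Weierstrass coefficients lie in `R` -/
structure CoefIn (R : Subring L) (W : WeierstrassCurve.Affine L) : Prop where
  a₁ : W.a₁ ∈ R
  a₂ : W.a₂ ∈ R
  a₃ : W.a₃ ∈ R
  a₄ : W.a₄ ∈ R
  a₆ : W.a₆ ∈ R

variable {W : WeierstrassCurve.Affine L}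

omit [Finite ι] in
theorem integralModel_of_coefIn (hWR : CoefIn R W) : IntegralModel A.valuation W where
  a₁ := (A.valuation_le_one_iff _).mpr (C.hR hWR.a₁)
  a₂ := (A.valuation_le_one_iff _).mpr (C.hR hWR.a₂)
  a₃ := (A.valuation_le_one_iff _).mpr (C.hR hWR.a₃)
  a₄ := (A.valuation_le_one_iff _).mpr (C.hR hWR.a₄)
  a₆ := (A.valuation_le_one_iff _).mpr (C.hR hWR.a₆)

variable [IsAlgClosed L] (hWR : CoefIn R W) (hW : IntegralModel A.valuation W)
include hWR

/-- **`w(z)` is analytic.** -/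
theorem an_wOf (i : ι) : AnalyticOn A R ϖ (fun u : ι → L => wOf hW (u i)) := by
  have hT : AnalyticOn A R ϖ (fun y : Option ι → L => y none) := an_coord C none
  have hZ : AnalyticOn A R ϖ (fun y : Option ι → L => y (some i)) := an_coord C (some i)
  have hS : AnalyticOn A R ϖ (fun y : Option ι → L => y none - ((y (some i)) ^ 3 +
      W.a₁ * (y (some i) * y none) + W.a₂ * ((y (some i)) ^ 2 * y none) + W.a₃ * (y none) ^ 2 +
      W.a₄ * (y (some i) * (y none) ^ 2) + W.a₆ * (y none) ^ 3)) := by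
    refine an_sub C hT ?_
    refine an_add C (an_add C (an_add C (an_add C (an_add C ?_ ?_) ?_) ?_) ?_) ?_
    · exact an_pow C hZ 3
    · exact an_cmul C hWR.a₁ (an_mul C hZ hT)
    · exact an_cmul C hWR.a₂ (an_mul C (an_pow C hZ 2) hT)
    · exact an_cmul C hWR.a₃ (an_pow C hT 2)
    · exact an_cmul C hWR.a₄ (an_mul C hZ (an_pow C hT 2))
    · exact an_cmul C hWR.a₆ (an_pow C hT 3)
  refine analyticOn_implicit A R C.hR C.hϖ C.hε C.hRinv hS (fun u hu => ?_) (fun u hu => ?_) ?_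
  · exact val_wOf_lt hW (hu i)
  · have e := zw_wOf hW (hu i)
    unfold ZW ZWEq at e
    show oconsL (wOf hW (u i)) u none - ((oconsL (wOf hW (u i)) u (some i)) ^ 3 +
      W.a₁ * (oconsL (wOf hW (u i)) u (some i) * oconsL (wOf hW (u i)) u none) +
      W.a₂ * ((oconsL (wOf hW (u i)) u (some i)) ^ 2 * oconsL (wOf hW (u i)) u none) +
      W.a₃ * (oconsL (wOf hW (u i)) u none) ^ 2 +
      W.a₄ * (oconsL (wOf hW (u i)) u (some i) * (oconsL (wOf hW (u i)) u none) ^ 2) +
      W.a₆ * (oconsL (wOf hW (u i)) u none) ^ 3) = 0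
    have e1 : oconsL (wOf hW (u i)) u none = wOf hW (u i) := rfl
    have e2 : oconsL (wOf hW (u i)) u (some i) = u i := rfl
    rw [e1, e2]
    linear_combination e
  · obtain ⟨r, hr1, hr2⟩ := C.hr
    refine ⟨r, 1, hr1, hr2, map_one _, ?_⟩
    have e1 : oconsL r (0 : ι → L) none = r := rfl
    have e2 : oconsL r (0 : ι → L) (some i) = 0 := rfl
    have e3 : oconsL (0 : L) (0 : ι → L) none = 0 := rfl
    have e4 : oconsL (0 : L) (0 : ι → L) (some i) = 0 := rfl
    show A.valuation (oconsL r (0 : ι → L) none - ((oconsL r (0 : ι → L) (some i)) ^ 3 +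
      W.a₁ * (oconsL r (0 : ι → L) (some i) * oconsL r (0 : ι → L) none) +
      W.a₂ * ((oconsL r (0 : ι → L) (some i)) ^ 2 * oconsL r (0 : ι → L) none) +
      W.a₃ * (oconsL r (0 : ι → L) none) ^ 2 +
      W.a₄ * (oconsL r (0 : ι → L) (some i) * (oconsL r (0 : ι → L) none) ^ 2) +
      W.a₆ * (oconsL r (0 : ι → L) none) ^ 3) -
      (oconsL (0 : L) (0 : ι → L) none - ((oconsL (0 : L) (0 : ι → L) (some i)) ^ 3 +
      W.a₁ * (oconsL (0 : L) (0 : ι → L) (some i) * oconsL (0 : L) (0 : ι → L) none) +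
      W.a₂ * ((oconsL (0 : L) (0 : ι → L) (some i)) ^ 2 * oconsL (0 : L) (0 : ι → L) none) +
      W.a₃ * (oconsL (0 : L) (0 : ι → L) none) ^ 2 +
      W.a₄ * (oconsL (0 : L) (0 : ι → L) (some i) * (oconsL (0 : L) (0 : ι → L) none) ^ 2) +
      W.a₆ * (oconsL (0 : L) (0 : ι → L) none) ^ 3)) - 1 * r) ≤ _
    rw [e1, e2, e3, e4]
    have e : r - (0 ^ 3 + W.a₁ * (0 * r) + W.a₂ * (0 ^ 2 * r) + W.a₃ * r ^ 2 + W.a₄ * (0 * r ^ 2) +
        W.a₆ * r ^ 3) - (0 - (0 ^ 3 + W.a₁ * (0 * 0) + W.a₂ * (0 ^ 2 * 0) + W.a₃ * 0 ^ 2 +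
        W.a₄ * (0 * 0 ^ 2) + W.a₆ * 0 ^ 3)) - 1 * r = -(r ^ 2 * (W.a₃ + W.a₆ * r)) := by ring
    rw [e, Valuation.map_neg, map_mul, map_pow]
    refine le_trans ?_ (le_max_left _ _)
    have h1 : A.valuation (W.a₃ + W.a₆ * r) ≤ 1 := by
      refine Valuation.map_add_le _ hW.a₃ ?_
      rw [map_mul]
      exact mul_le_one' hW.a₆ hr2.le
    calc A.valuation r ^ 2 * A.valuation (W.a₃ + W.a₆ * r) ≤ A.valuation r ^ 2 * 1 :=
          mul_le_mul' le_rfl h1
      _ = A.valuation r ^ 2 := mul_one _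

omit C hWR [Finite ι] in
/-- smallness data on the polydisc -/
theorem sm_data {i j : ι} {u : ι → L} (hu : u ∈ PolyDisc A ι) :
    ∃ t : A.ValueGroup, t < 1 ∧ Sm A.valuation t 1 (u i) ∧ Sm A.valuation t 1 (u j) ∧
      Sm A.valuation t 3 (wOf hW (u i)) ∧ Sm A.valuation t 3 (wOf hW (u j)) := by
  refine ⟨max (A.valuation (u i)) (A.valuation (u j)), max_lt (hu i) (hu j),
    sm_one_of_le (le_max_left _ _), sm_one_of_le (le_max_right _ _), ?_, ?_⟩
  · unfold Sm
    rw [val_wOf hW (hu i)]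
    exact pow_le_pow_left₀ zero_le (le_max_left _ _) 3
  · unfold Sm
    rw [val_wOf hW (hu j)]
    exact pow_le_pow_left₀ zero_le (le_max_right _ _) 3

/-- **the group law is analytic.** -/
theorem an_Fz (i j : ι) :
    AnalyticOn A R ϖ (fun u : ι → L => Fz W (u i) (u j) (wOf hW (u i)) (wOf hW (u j))) := by
  have hz₁ : AnalyticOn A R ϖ (fun u : ι → L => u i) := an_coord C i
  have hz₂ : AnalyticOn A R ϖ (fun u : ι → L => u j) := an_coord C j
  have hw₁ := an_wOf C hWR hW i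
  have hw₂ := an_wOf C hWR hW j
  have h2 : (2 : L) ∈ R := by
    have := natCast_mem R 2
    simpa using this
  have h3 : (3 : L) ∈ R := by
    have := natCast_mem R 3
    simpa using this
  -- U and its inverse
  have hU : AnalyticOn A R ϖ (fun u : ι → L =>
      chordU W.a₁ W.a₂ W.a₃ W.a₄ W.a₆ (u i) (wOf hW (u i)) (wOf hW (u j))) := by
    unfold chordU
    refine an_sub C (an_sub C (an_sub C (an_sub C (an_sub C (an_const C R.one_mem) ?_) ?_) ?_) ?_) ?_
    · exact an_cmul C hWR.a₁ hz₁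
    · exact an_cmul C hWR.a₂ (an_pow C hz₁ 2)
    · exact an_cmul C hWR.a₃ (an_add C hw₁ hw₂)
    · exact an_mul C (an_cmul C hWR.a₄ hz₁) (an_add C hw₁ hw₂)
    · exact an_cmul C hWR.a₆ (an_add C (an_add C (an_pow C hw₁ 2) (an_mul C hw₁ hw₂))
        (an_pow C hw₂ 2))
  have hUinv := an_inv C hU (fun u hu => by
    obtain ⟨t, ht, s1, s2, s3, s4⟩ := sm_data (i := i) (j := j) hW hu
    exact (val_law_sub hW ht s1 s2 s3 s4).1)
  have hN : AnalyticOn A R ϖ (fun u : ι → L =>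
      chordN W.a₁ W.a₂ W.a₄ (u i) (u j) (wOf hW (u j))) := by
    unfold chordN
    refine an_add C (an_add C (an_add C (an_add C (an_add C ?_ ?_) ?_) ?_) ?_) ?_
    · exact an_pow C hz₁ 2
    · exact an_mul C hz₁ hz₂
    · exact an_pow C hz₂ 2
    · exact an_cmul C hWR.a₁ hw₂
    · exact an_mul C (an_cmul C hWR.a₂ (an_add C hz₁ hz₂)) hw₂
    · exact an_cmul C hWR.a₄ (an_pow C hw₂ 2)
  have hlam : AnalyticOn A R ϖ (fun u : ι → L =>
      lamOf W (u i) (u j) (wOf hW (u i)) (wOf hW (u j))) :=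
    (an_mul C hN hUinv).congr A (fun u _ => by unfold lamOf; rw [div_eq_mul_inv])
  have hnu : AnalyticOn A R ϖ (fun u : ι → L =>
      nuOf W (u i) (u j) (wOf hW (u i)) (wOf hW (u j))) := by
    unfold nuOf
    exact an_sub C hw₁ (an_mul C hlam hz₁)
  have hc2 : AnalyticOn A R ϖ (fun u : ι → L => cTwo W.a₁ W.a₂ W.a₃ W.a₄ W.a₆
      (lamOf W (u i) (u j) (wOf hW (u i)) (wOf hW (u j)))
      (nuOf W (u i) (u j) (wOf hW (u i)) (wOf hW (u j)))) := by
    unfold cTwo
    refine an_add C (an_add C (an_add C (an_add C ?_ ?_) ?_) ?_) ?_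
    · exact an_cmul C hWR.a₁ hlam
    · exact an_cmul C hWR.a₂ hnu
    · exact an_cmul C hWR.a₃ (an_pow C hlam 2)
    · exact an_mul C (an_mul C (an_cmul C h2 (an_const C hWR.a₄)) hlam) hnu
    · exact an_mul C (an_mul C (an_cmul C h3 (an_const C hWR.a₆)) (an_pow C hlam 2)) hnu
  have hc3 : AnalyticOn A R ϖ (fun u : ι → L => cThree W.a₂ W.a₄ W.a₆
      (lamOf W (u i) (u j) (wOf hW (u i)) (wOf hW (u j)))) := by
    unfold cThree
    refine an_add C (an_add C (an_add C (an_const C R.one_mem) ?_) ?_) ?_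
    · exact an_cmul C hWR.a₂ hlam
    · exact an_cmul C hWR.a₄ (an_pow C hlam 2)
    · exact an_cmul C hWR.a₆ (an_pow C hlam 3)
  have hc3inv := an_inv C hc3 (fun u hu => by
    obtain ⟨t, ht, s1, s2, s3, s4⟩ := sm_data (i := i) (j := j) hW hu
    exact (val_law_sub hW ht s1 s2 s3 s4).2.1)
  have hz3 : AnalyticOn A R ϖ (fun u : ι → L =>
      z3Of W (u i) (u j) (wOf hW (u i)) (wOf hW (u j))) :=
    (an_sub C (an_sub C (an_neg C hz₁) hz₂) (an_mul C hc2 hc3inv)).congr A
      (fun u _ => by unfold z3Of; rw [div_eq_mul_inv])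
  have hw3 : AnalyticOn A R ϖ (fun u : ι → L =>
      w3Of W (u i) (u j) (wOf hW (u i)) (wOf hW (u j))) := by
    unfold w3Of
    exact an_add C (an_mul C hlam hz3) hnu
  have hD : AnalyticOn A R ϖ (fun u : ι → L =>
      1 - W.a₁ * z3Of W (u i) (u j) (wOf hW (u i)) (wOf hW (u j)) -
        W.a₃ * w3Of W (u i) (u j) (wOf hW (u i)) (wOf hW (u j))) :=
    an_sub C (an_sub C (an_const C R.one_mem) (an_cmul C hWR.a₁ hz3)) (an_cmul C hWR.a₃ hw3)
  have hDinv := an_inv C hD (fun u hu => by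
    obtain ⟨t, ht, s1, s2, s3, s4⟩ := sm_data (i := i) (j := j) hW hu
    exact (val_law_sub hW ht s1 s2 s3 s4).2.2)
  exact (an_mul C (an_neg C hz3) hDinv).congr A
    (fun u _ => by unfold Fz negZ; rw [div_eq_mul_inv])

/-- **negation is analytic.** -/
theorem an_negZ (i : ι) :
    AnalyticOn A R ϖ (fun u : ι → L => negZ W (u i) (wOf hW (u i))) := by
  have hz : AnalyticOn A R ϖ (fun u : ι → L => u i) := an_coord C i
  have hw := an_wOf C hWR hW i
  have hD : AnalyticOn A R ϖ (fun u : ι → L => 1 - W.a₁ * u i - W.a₃ * wOf hW (u i)) :=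
    an_sub C (an_sub C (an_const C R.one_mem) (an_cmul C hWR.a₁ hz)) (an_cmul C hWR.a₃ hw)
  have hDinv := an_inv C hD (fun u hu => by
    have hzu : A.valuation (u i) < 1 := hu i
    have hwu : A.valuation (wOf hW (u i)) < 1 := val_wOf_lt hW hzu
    have e : 1 - (1 - W.a₁ * u i - W.a₃ * wOf hW (u i)) = W.a₁ * u i + W.a₃ * wOf hW (u i) := by
      ring
    rw [e]
    refine lt_of_le_of_lt (Valuation.map_add _ _ _) (max_lt ?_ ?_)
    · rw [map_mul]
      exact lt_of_le_of_lt (mul_le_mul' hW.a₁ le_rfl) (by rwa [one_mul])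
    · rw [map_mul]
      exact lt_of_le_of_lt (mul_le_mul' hW.a₃ le_rfl) (by rwa [one_mul]))
  exact (an_mul C (an_neg C hz) hDinv).congr A
    (fun u _ => by unfold negZ; rw [div_eq_mul_inv])

end Fermat.Agent.S59lib.Flat
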