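/-
S59lib / Flat / Germ  (helper9) — Project I, block C2.

The kernel of reduction of an integral Weierstrass model `W` over `ℤ` at a place `A` of `ℚ̄` over an
odd prime `p` is an `S19lib.AnalyticGerm` of dimension one (parameter `z = -x/y`):
`weierstrassGerm W p A hA hΔ hp2`, with `K = S05lib.kerRed` (`mem_germ_K`).
-/
import Fermat.Agent.S19lib.D.Comp
import Fermat.Agent.S19lib.G.ValBasics
import Fermat.Agent.S05lib.Inertia
import Fermat.Agent.S59lib.Flat.An
import Fermat.Agent.S59lib.Flat.Iface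

set_option autoImplicit false
set_option linter.style.haveILetI false

noncomputable section

namespace Fermat.Agent.S59lib.Flat

open Fermat.Agent.S19lib Fermat.Agent.S58lib.Tate Fermat.Agent.S05lib WeierstrassCurve

local notation "Qb" => AlgebraicClosure ℚ
local notation "GQ" => (AlgebraicClosure ℚ ≃ₐ[ℚ] AlgebraicClosure ℚ)

/-- the curve over `ℚ̄` -/
abbrev WB (W : WeierstrassCurve ℤ) : WeierstrassCurve.Affine Qb :=
  WeierstrassCurve.Affine.baseChange (WQ' W) Qb

example (W : WeierstrassCurve ℤ) : Pts (WQ' W) = (WB W).Point := rfl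

section coef

variable (A : ValuationSubring Qb) {p : ℕ} [hp : Fact p.Prime] (hA : A.LiesOverPrime p)
include hA

/-- the standing hypotheses of the analytic calculus for `R = A0 A`, `ϖ = p`. -/
theorem coef_A0 : Coef A (A0 A) ((p : ℕ) : Qb) where
  hR := fun a ha => ha.1
  hϖ := G.val_prime_lt_one hA
  hε := fun ε hε hlt => D.valuation_le_of_mem_A0 hp.out A hA hε hlt
  hRinv := by
    intro r hr hv
    have hr0 : r ≠ 0 := by
      rintro rfl
      rw [map_zero] at hv
      exact zero_ne_one hv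
    refine ⟨(A.valuation_le_one_iff _).mp ?_, fun σ hσ => ?_⟩
    · rw [map_inv₀, hv, inv_one]
    · rw [map_inv₀, hr.2 σ hσ]
  hr := by
    obtain ⟨r, hr⟩ := IsAlgClosed.exists_pow_nat_eq ((p : ℕ) : Qb) (n := 2) (by norm_num)
    have hv : A.valuation r ^ 2 = A.valuation ((p : ℕ) : Qb) := by rw [← map_pow, hr]
    have hp1 := G.val_prime_lt_one hA
    have hp0 : A.valuation ((p : ℕ) : Qb) ≠ 0 := G.val_prime_ne_zero hp.out
    have hr1 : A.valuation r < 1 := by
      by_contra h
      have h1 : 1 ≤ A.valuation r := not_lt.mp h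
      have : 1 ≤ A.valuation r ^ 2 := one_le_pow₀ h1
      rw [hv] at this
      exact absurd hp1 (not_lt.mpr this)
    have hr0 : A.valuation r ≠ 0 := by
      intro h0
      rw [h0] at hv
      exact hp0 (by rw [← hv]; norm_num)
    refine ⟨r, ?_, hr1⟩
    rw [← hv, pow_two]
    calc A.valuation r * A.valuation r < 1 * A.valuation r :=
          mul_lt_mul_of_pos_right hr1 (zero_lt_iff.mpr hr0)
      _ = A.valuation r := one_mul _

end coef

/-! ### the curve -/

section curve

variable (W : WeierstrassCurve ℤ) (A : ValuationSubring Qb)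

theorem WB_a₁ : (WB W).a₁ = ((W.a₁ : ℤ) : Qb) := by
  show algebraMap ℚ Qb ((Int.castRingHom ℚ) W.a₁) = _
  simp

theorem WB_a₂ : (WB W).a₂ = ((W.a₂ : ℤ) : Qb) := by
  show algebraMap ℚ Qb ((Int.castRingHom ℚ) W.a₂) = _
  simp

theorem WB_a₃ : (WB W).a₃ = ((W.a₃ : ℤ) : Qb) := by
  show algebraMap ℚ Qb ((Int.castRingHom ℚ) W.a₃) = _
  simp

theorem WB_a₄ : (WB W).a₄ = ((W.a₄ : ℤ) : Qb) := by
  show algebraMap ℚ Qb ((Int.castRingHom ℚ) W.a₄) = _
  simp

theorem WB_a₆ : (WB W).a₆ = ((W.a₆ : ℤ) : Qb) := by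
  show algebraMap ℚ Qb ((Int.castRingHom ℚ) W.a₆) = _
  simp

/-- the coefficients are inertia-fixed integers -/
theorem coefIn_WB : CoefIn (A0 A) (WB W) where
  a₁ := by rw [WB_a₁]; exact intCast_mem _ _
  a₂ := by rw [WB_a₂]; exact intCast_mem _ _
  a₃ := by rw [WB_a₃]; exact intCast_mem _ _
  a₄ := by rw [WB_a₄]; exact intCast_mem _ _
  a₆ := by rw [WB_a₆]; exact intCast_mem _ _

/-- the model is integral at every place -/
theorem integralModel_WB : IntegralModel A.valuation (WB W) where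
  a₁ := by rw [WB_a₁]; exact G.val_intCast_le_one _
  a₂ := by rw [WB_a₂]; exact G.val_intCast_le_one _
  a₃ := by rw [WB_a₃]; exact G.val_intCast_le_one _
  a₄ := by rw [WB_a₄]; exact G.val_intCast_le_one _
  a₆ := by rw [WB_a₆]; exact G.val_intCast_le_one _

theorem isElliptic_WB (hΔ : W.Δ ≠ 0) : (WB W).IsElliptic :=
  ⟨isUnit_iff_ne_zero.mpr (baseChange_Δ_ne_zero _ (WQ'_Δ_ne_zero hΔ))⟩

end curve

/-! ### the Galois action in the parameter `z` -/

section galois

variable (W : WeierstrassCurve ℤ) (A : ValuationSubring Qb)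

omit A in
/-- `zc` is Galois-equivariant -/
theorem zc_smul (σ : GQ) (P : (WB W).Point) : zc (σ • P) = σ (zc P) := by
  rcases P with _ | ⟨x, y, h⟩
  · show (0 : Qb) = σ 0
    rw [map_zero]
  · show -(σ x) / (σ y) = σ (-x / y)
    rw [map_div₀, map_neg]

variable {A}

theorem val_smul_le_one_iff {σ : GQ} (hσ : σ ∈ DA A) (x : Qb) :
    A.valuation (σ x) ≤ 1 ↔ A.valuation x ≤ 1 := by
  rw [A.valuation_le_one_iff, A.valuation_le_one_iff]
  exact decomposition_mem_iff (K := ℚ) A ⟨σ, hσ⟩ x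

theorem one_lt_val_smul_iff {σ : GQ} (hσ : σ ∈ DA A) (x : Qb) :
    1 < A.valuation (σ x) ↔ 1 < A.valuation x := by
  rw [← not_le, ← not_le, val_smul_le_one_iff hσ]

theorem val_smul_lt_one_iff {σ : GQ} (hσ : σ ∈ DA A) (x : Qb) :
    A.valuation (σ x) < 1 ↔ A.valuation x < 1 := by
  rcases eq_or_ne x 0 with rfl | hx
  · rw [map_zero]
  · have hσx : σ x ≠ 0 := (map_ne_zero σ).mpr hx
    have h1 : A.valuation (σ x) < 1 ↔ 1 < A.valuation (σ x⁻¹) := by
      rw [map_inv₀, map_inv₀, one_lt_inv₀ (zero_lt_iff.mpr ((Valuation.ne_zero_iff _).mpr hσx))]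
    have h2 : A.valuation x < 1 ↔ 1 < A.valuation x⁻¹ := by
      rw [map_inv₀, one_lt_inv₀ (zero_lt_iff.mpr ((Valuation.ne_zero_iff _).mpr hx))]
    rw [h1, h2, one_lt_val_smul_iff hσ]

theorem inE1_smul {σ : GQ} (hσ : σ ∈ DA A) {P : (WB W).Point}
    (hP : InE1 A.valuation (WB W) P) : InE1 A.valuation (WB W) (σ • P) := by
  rcases P with _ | ⟨x, y, h⟩
  · exact trivial
  · show 1 < A.valuation (σ x)
    exact (one_lt_val_smul_iff hσ x).mpr hP

theorem IA_le_DA {σ : GQ} (hσ : σ ∈ IA A) : σ ∈ DA A := by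
  obtain ⟨τ, -, rfl⟩ := inertia_exists (K := ℚ) A hσ
  exact τ.2

variable (hΔ : W.Δ ≠ 0)

/-- the parametrisation is equivariant under the decomposition group -/
theorem smul_ptOf {σ : GQ} (hσ : σ ∈ DA A) {z : Qb} (hz : A.valuation z < 1) :
    haveI := isElliptic_WB W hΔ
    σ • ptOf (integralModel_WB W A) z = ptOf (integralModel_WB W A) (σ z) := by
  haveI := isElliptic_WB W hΔ
  have h1 := inE1_smul W hσ (inE1_ptOf (integralModel_WB W A) hz)
  rw [← ptOf_zc (integralModel_WB W A) h1, zc_smul, zc_ptOf (integralModel_WB W A) hz]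

omit hΔ in
theorem wc_ptOf [(WB W).IsElliptic] {z : Qb} (hz : A.valuation z < 1) :
    wc (ptOf (integralModel_WB W A) z) = wOf (integralModel_WB W A) z := by
  by_cases hz0 : z = 0
  · rw [hz0, ptOf_zero, wOf_zero, wc_zero]
  · rw [ptOf_of_ne _ hz hz0, wc_some]
    have := wOf_ne_zero (integralModel_WB W A) hz hz0
    field_simp

end galois

/-! ### the germ -/

section germ

variable (W : WeierstrassCurve ℤ) (hΔ : W.Δ ≠ 0) (A : ValuationSubring Qb) {p : ℕ}
  [hp : Fact p.Prime] (hA : A.LiesOverPrime p) (hp2 : p ≠ 2)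

include hA hp2 in
theorem val_two_eq_one : A.valuation (2 : Qb) = 1 := by
  have h : ¬ ((p : ℕ) : ℤ) ∣ 2 := by
    intro h
    have h' : p ∣ 2 := by exact_mod_cast h
    exact hp2 ((Nat.prime_dvd_prime_iff_eq hp.out Nat.prime_two).mp h')
  have := G.val_intCast_eq_one hp.out hA h
  simpa using this

/-- **the Weierstrass formal group as an analytic germ.** -/
def weierstrassGerm : AnalyticGerm A p (Pts (WQ' W)) :=
  haveI := isElliptic_WB W hΔ
  { g := 1
    K := kerRed (integralModel_WB W A)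
    Θ := fun u => ptOf (integralModel_WB W A) (u 0)
    coord := fun P _ => zc (W := WB W) P
    Θ_mem := fun u hu => inE1_ptOf (integralModel_WB W A) (hu 0)
    coord_mem := fun x hx _ => val_zc_lt (integralModel_WB W A) hx
    coord_Θ := fun u hu => by
      funext i
      rw [Fin.fin_one_eq_zero i]
      exact zc_ptOf (integralModel_WB W A) (hu 0)
    Θ_coord := fun x hx => ptOf_zc (integralModel_WB W A) hx
    smul_mem := fun σ hσ x hx => inE1_smul W hσ hx
    Θ_smul := fun σ hσ u hu => (smul_ptOf W hΔ (IA_le_DA hσ) (hu 0)).symm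
    add_analytic := fun i => by
      rw [a0Analytic_iff]
      have key := an_Fz (coef_A0 A hA) (coefIn_WB W A) (integralModel_WB W A)
        (ι := Fin 1 ⊕ Fin 1) (Sum.inl 0) (Sum.inr 0)
      refine key.congr A (fun u hu => ?_)
      have h1 : A.valuation (u (Sum.inl 0)) < 1 := hu _
      have h2 : A.valuation (u (Sum.inr 0)) < 1 := hu _
      show _ = zc (ptOf (integralModel_WB W A) (u (Sum.inl 0)) +
        ptOf (integralModel_WB W A) (u (Sum.inr 0)))
      rw [zc_add (integralModel_WB W A) (val_two_eq_one A hA hp2)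
        (inE1_ptOf (integralModel_WB W A) h1) (inE1_ptOf (integralModel_WB W A) h2),
        zc_ptOf _ h1, zc_ptOf _ h2, wc_ptOf W h1, wc_ptOf W h2]
    neg_analytic := fun i => by
      rw [a0Analytic_iff]
      have key := an_negZ (coef_A0 A hA) (coefIn_WB W A) (integralModel_WB W A)
        (ι := Fin 1) 0
      refine key.congr A (fun u hu => ?_)
      have h1 : A.valuation (u 0) < 1 := hu _
      show _ = zc (-(ptOf (integralModel_WB W A) (u 0)))
      rw [zc_neg (integralModel_WB W A) (inE1_ptOf (integralModel_WB W A) h1),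
        zc_ptOf _ h1, wc_ptOf W h1]
    conj_analytic := fun σ _ i => by
      rw [a0Analytic_iff]
      have key := an_coord (coef_A0 A hA) (ι := Fin 1) 0
      refine key.congr A (fun u hu => ?_)
      have h1 : A.valuation (u 0) < 1 := hu _
      show u 0 = σ (zc (σ⁻¹ • ptOf (integralModel_WB W A) (u 0)))
      rw [zc_smul, zc_ptOf _ h1]
      show u 0 = σ (σ⁻¹ (u 0))
      exact (AlgEquiv.apply_symm_apply σ (u 0)).symm }

theorem mem_weierstrassGerm_K (P : Pts (WQ' W)) :
    P ∈ (weierstrassGerm W hΔ A hA hp2).K ↔ InE1 A.valuation (WB W) P := Iff.rfl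

/-- the statement of `Flat/Centres.lean` (helper2): every point has an inertia-fixed point in its
residue disc. -/
def WCentresStmt : Prop :=
  ∀ (W : WeierstrassCurve ℤ) (p : ℕ) [Fact p.Prime], ¬ (p : ℤ) ∣ W.Δ →
    ∀ A : ValuationSubring Qb, A.LiesOverPrime p → ∀ x : Pts (WQ' W),
      ∃ y : Pts (WQ' W), (∀ σ ∈ IA A, σ • y = y) ∧ InE1 A.valuation (WB W) (x - y)

omit hp hΔ in
/-- **`WGermStmt` from the centres.** -/
theorem wGermStmt_of_centres (hcen : WCentresStmt) : WGermStmt := by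
  intro W p _ hp2 hgood A hA
  have hΔ : W.Δ ≠ 0 := fun h => hgood (by rw [h]; exact dvd_zero _)
  exact ⟨weierstrassGerm W hΔ A hA hp2, fun x => hcen W p hgood A hA x⟩

end germ

end Fermat.Agent.S59lib.Flat
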