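/-
S59lib / Flat / Main  (helper2) — Project I, block C2.

**`WHopfStmt ⟹ WFlatStmt`**: if every `W[p^n](ℚ̄)` is the group of `ℚ̄`-points of a finite flat
commutative group scheme over `ℤ_(p)` (`HopfConclusion`, from the S19 machine fed with the elliptic germ),
then the Tate module `tateRep (WQ' W) p : GaloisRepAdic O` is flat at `p` for every complete local `O`
(`p ∈ 𝔪_O`, Noetherian, finite residue field).

For an ideal `𝔞` of finite index pick `n` with `𝔪ⁿ ≤ 𝔞`.  Then `V/𝔞V = (O/𝔞)²` with the matrices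
`tateMat σ mod 𝔞 = (galMat n σ).map (ℤ/pⁿ → O/𝔞)` is an equivariant additive quotient of
`(O/𝔞 → W[pⁿ])` (`x ↦ ∑_c c • κ_n (x c)`, as in helper8's `S32lib/Lat/Torsion`, here for an arbitrary
`TorsionSystem`), and finite flat models pass to finite powers and quotients (`S32lib/FM`).
-/
import Fermat.Agent.S59lib.Flat.Iface
import Fermat.Agent.S32lib.FM.Prod
import Fermat.Agent.S32lib.FM.Quot
import Fermat.Agent.S32lib.Comb.Main
import Fermat.Agent.S29lib.S30.AdicLattice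
import Fermat.Agent.S29lib.Dvr.Complete
import Fermat.Agent.S58lib.Tate.Rep

set_option autoImplicit false
set_option linter.unusedSectionVars false
set_option linter.style.haveILetI false

noncomputable section

namespace Fermat.Agent.S59lib.Flat

open Matrix Fermat.Agent.S19lib Fermat.Agent.S58lib.Tate Fermat.Agent.S32lib
open Fermat.Agent.S29lib.E Fermat.Agent.S29lib.S30

local notation "Qb" => AlgebraicClosure ℚ
local notation "GQ" => (AlgebraicClosure ℚ ≃ₐ[ℚ] AlgebraicClosure ℚ)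

/-! ### `(O/𝔞)^r` for an arbitrary torsion system -/

section system

variable {ι : Type} {p r : ℕ} (𝒯 : TorsionSystem GQ ι p r)
  {O : Type} [CommRing O] [IsLocalRing O] [IsAdicComplete (IsLocalRing.maximalIdeal O) O]
  (hpO : (p : O) ∈ IsLocalRing.maximalIdeal O)

/-- the action of `σ` on `(O/𝔞)^r` through the limit matrices. -/
def actQuotSys (𝔞 : Ideal O) (σ : GQ) (v : Fin r → O ⧸ 𝔞) : Fin r → O ⧸ 𝔞 :=
  (galMatO 𝒯 (IsLocalRing.maximalIdeal O) hpO σ).map (Ideal.Quotient.mk 𝔞) *ᵥ v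

/-- **`(O/𝔞)^r` has a finite flat model** if all the torsion levels have one
(helper8's `S32lib.hasFlatModel_quot` for a general torsion system). -/
theorem hasFlatModel_quotSys [Fact p.Prime]
    (h : ∀ n : ℕ, HasFlatModel p (𝒯.T n) (fun σ x => 𝒯.act n σ x))
    (𝔞 : Ideal O) [Finite (O ⧸ 𝔞)] (n : ℕ) (hn : IsLocalRing.maximalIdeal O ^ n ≤ 𝔞) :
    HasFlatModel p (Fin r → O ⧸ 𝔞) (actQuotSys 𝒯 hpO 𝔞) := by
  classical
  haveI : Fintype (O ⧸ 𝔞) := Fintype.ofFinite _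
  let θ : ZMod (p ^ n) →+* O ⧸ 𝔞 :=
    (Ideal.Quotient.factor hn).comp (psi (IsLocalRing.maximalIdeal O) hpO n)
  have hred : ∀ σ : GQ,
      (galMatO 𝒯 (IsLocalRing.maximalIdeal O) hpO σ).map (Ideal.Quotient.mk 𝔞) =
        (𝒯.galMat n σ).map θ := by
    intro σ
    have h1 := isLim_galMatO 𝒯 (IsLocalRing.maximalIdeal O) hpO σ n
    have h2 := congrArg (fun X : Matrix (Fin r) (Fin r) (O ⧸ IsLocalRing.maximalIdeal O ^ n) =>
      X.map (Ideal.Quotient.factor hn)) h1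
    simp only [Matrix.map_map] at h2
    have e : (Ideal.Quotient.factor hn : O ⧸ IsLocalRing.maximalIdeal O ^ n → O ⧸ 𝔞) ∘
        (Ideal.Quotient.mk (IsLocalRing.maximalIdeal O ^ n)) = Ideal.Quotient.mk 𝔞 := by
      funext x
      rfl
    rw [e] at h2
    exact h2
  let Pmap : ((O ⧸ 𝔞) → 𝒯.T n) →+ (Fin r → O ⧸ 𝔞) :=
    { toFun := fun x i => ∑ c : O ⧸ 𝔞, c * θ (𝒯.κ n (x c) i)
      map_zero' := by
        funext i
        simp
      map_add' := by
        intro x y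
        funext i
        simp only [Pi.add_apply, map_add, mul_add, Finset.sum_add_distrib] }
  have hPmap : ∀ x i, Pmap x i = ∑ c : O ⧸ 𝔞, c * θ (𝒯.κ n (x c) i) := fun _ _ => rfl
  have hmodel := (h n).pi (O ⧸ 𝔞)
  refine hmodel.of_surjective Pmap ?_ ?_
  · intro v
    refine ⟨fun c => (𝒯.κ n).symm (fun i => if v i = c then 1 else 0), ?_⟩
    funext i
    rw [hPmap]
    simp only [AddEquiv.apply_symm_apply]
    have : ∀ c : O ⧸ 𝔞, c * θ (if v i = c then 1 else 0) = if v i = c then c else 0 := by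
      intro c
      split_ifs <;> simp
    simp only [this]
    rw [Finset.sum_ite_eq Finset.univ (v i) (fun c => c)]
    simp
  · intro σ x
    funext i
    have h1 : ∀ c : O ⧸ 𝔞, 𝒯.κ n (𝒯.act n σ (x c)) = (𝒯.galMat n σ) *ᵥ (𝒯.κ n (x c)) := by
      intro c
      exact (𝒯.galMat_mulVec_κ n σ (x c)).symm
    have lhs : Pmap (fun c => 𝒯.act n σ (x c)) i =
        ∑ c : O ⧸ 𝔞, c * θ (((𝒯.galMat n σ) *ᵥ (𝒯.κ n (x c))) i) := by
      rw [hPmap]
      refine Finset.sum_congr rfl fun c _ => ?_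
      rw [h1 c]
    have rhs : actQuotSys 𝒯 hpO 𝔞 σ (Pmap x) i =
        ∑ l, θ (𝒯.galMat n σ i l) * ∑ c : O ⧸ 𝔞, c * θ (𝒯.κ n (x c) l) := by
      unfold actQuotSys
      rw [hred, Matrix.mulVec, dotProduct]
      refine Finset.sum_congr rfl fun l _ => ?_
      rw [Matrix.map_apply, hPmap]
    refine lhs.trans (Eq.trans ?_ rhs.symm)
    simp only [Matrix.mulVec, dotProduct, map_sum, map_mul, Finset.mul_sum]
    rw [Finset.sum_comm]
    refine Finset.sum_congr rfl fun l _ => Finset.sum_congr rfl fun c _ => ?_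
    ring

end system

/-! ### powers of the maximal ideal in ideals of finite index -/

theorem exists_maximalIdeal_pow_le {O : Type} [CommRing O] [IsLocalRing O] [IsNoetherianRing O]
    (𝔞 : Ideal O) [Finite (O ⧸ 𝔞)] : ∃ n : ℕ, IsLocalRing.maximalIdeal O ^ n ≤ 𝔞 := by
  apply Ideal.exists_pow_le_of_le_radical_of_fg
  · intro x hx
    obtain ⟨m, hm⟩ := exists_pow_mem_of_finite_quotient x hx 𝔞
    exact ⟨m, hm⟩
  · exact (isNoetherianRing_iff_ideal_fg O).mp inferInstance _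

/-! ### `V / 𝔞 V ≃ (Fin r → O/𝔞)` in a basis -/

section quot

variable {O : Type} [CommRing O] {V : Type} [AddCommGroup V] [Module O V] {r : ℕ}
  (b : Module.Basis (Fin r) O V) (𝔞 : Ideal O)

/-- coordinatewise reduction `V → (O/𝔞)^r` in the basis `b` -/
def redB : V →ₗ[O] (Fin r → O ⧸ 𝔞) where
  toFun v i := Ideal.Quotient.mk 𝔞 (b.repr v i)
  map_add' v w := by funext i; simp
  map_smul' a v := by funext i; simp [Algebra.smul_def]

theorem redB_apply (v : V) (i : Fin r) : redB b 𝔞 v i = Ideal.Quotient.mk 𝔞 (b.repr v i) := rfl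

theorem redB_surjective : Function.Surjective (redB b 𝔞) := by
  intro w
  refine ⟨b.equivFun.symm (fun i => Quotient.out (w i)), ?_⟩
  funext i
  rw [redB_apply]
  have : b.repr (b.equivFun.symm fun i => Quotient.out (w i)) i = Quotient.out (w i) :=
    congrFun (b.equivFun.apply_symm_apply (fun i => Quotient.out (w i))) i
  rw [this]
  exact Ideal.Quotient.mk_out (w i)

theorem ker_redB : LinearMap.ker (redB b 𝔞) = 𝔞 • (⊤ : Submodule O V) := by
  apply le_antisymm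
  · intro v hv
    rw [LinearMap.mem_ker] at hv
    refine Fermat.Agent.S29lib.Dvr.mem_smul_top_of_repr_mem b 𝔞 fun i => ?_
    have := congrFun hv i
    rw [redB_apply] at this
    exact Ideal.Quotient.eq_zero_iff_mem.mp this
  · rw [Submodule.smul_le]
    intro a ha v _
    rw [LinearMap.mem_ker]
    funext i
    rw [redB_apply, map_smul, Finsupp.smul_apply, smul_eq_mul, map_mul,
      Ideal.Quotient.eq_zero_iff_mem.mpr ha, zero_mul]
    rfl

/-- the comparison isomorphism -/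
def quotBEquiv : (V ⧸ (𝔞 • (⊤ : Submodule O V))) ≃ₗ[O] (Fin r → O ⧸ 𝔞) :=
  (Submodule.quotEquivOfEq _ _ (ker_redB b 𝔞).symm).trans
    ((redB b 𝔞).quotKerEquivOfSurjective (redB_surjective b 𝔞))

theorem quotBEquiv_mk (v : V) :
    quotBEquiv b 𝔞 (Submodule.Quotient.mk v) = redB b 𝔞 v := rfl

theorem quotBEquiv_symm_redB (v : V) :
    (quotBEquiv b 𝔞).symm (redB b 𝔞 v) = Submodule.Quotient.mk v := by
  rw [← quotBEquiv_mk, LinearEquiv.symm_apply_apply]

end quot

/-! ### a flat level from a flat model of the coordinates -/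

section level

variable {O : Type} [CommRing O] [IsLocalRing O] (ρ : GaloisRepAdic O) {r : ℕ}
  (b : Module.Basis (Fin r) O ρ.V) (Mat : GQ → Matrix (Fin r) (Fin r) O)

theorem flatLevel_of_coords {p : ℕ}
    (hM : ∀ σ v, (b.repr (ρ.ρ σ v) : Fin r → O) = Mat σ *ᵥ (b.repr v : Fin r → O)) (𝔞 : Ideal O)
    (hq : HasFlatModel p (Fin r → O ⧸ 𝔞)
      (fun σ v => (Mat σ).map (Ideal.Quotient.mk 𝔞) *ᵥ v)) :
    FlatLevel p ρ 𝔞 := by
  refine hq.of_equiv (quotBEquiv b 𝔞).symm.toAddEquiv ?_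
  intro σ v
  obtain ⟨w, rfl⟩ := redB_surjective b 𝔞 v
  have e2 : (Mat σ).map (Ideal.Quotient.mk 𝔞) *ᵥ (redB b 𝔞 w) = redB b 𝔞 (ρ.ρ σ w) := by
    funext i
    rw [redB_apply, hM σ w]
    have := RingHom.map_mulVec (Ideal.Quotient.mk 𝔞) (Mat σ) (b.repr w : Fin r → O) i
    rw [this]
    rfl
  show (quotBEquiv b 𝔞).symm ((Mat σ).map (Ideal.Quotient.mk 𝔞) *ᵥ (redB b 𝔞 w)) =
    ρ.levelAction 𝔞 σ ((quotBEquiv b 𝔞).symm (redB b 𝔞 w))
  rw [e2, quotBEquiv_symm_redB, quotBEquiv_symm_redB]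
  rfl

end level

/-! ### the theorem -/

/-- the two incarnations of `W[p^n]` -/
def wTorsEquiv (W : WeierstrassCurve ℤ) (p n : ℕ) :
    ↥(wTors W p n) ≃+ ↥(tors (Pts (WQ' W)) p n) where
  toFun x := ⟨x.1, x.2⟩
  invFun x := ⟨x.1, x.2⟩
  left_inv _ := rfl
  right_inv _ := rfl
  map_add' _ _ := rfl

/-- `HopfConclusion` for `W[p^n]` in the `HasFlatModel` vocabulary of `S32lib/FM`, for the
torsion system of the Tate module. -/
theorem hasFlatModel_tateSystem (W : WeierstrassCurve ℤ) (hΔ : W.Δ ≠ 0) (p : ℕ) [Fact p.Prime]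
    (n : ℕ) (h : HopfConclusion p (wTors W p n)) :
    HasFlatModel p ((tateSystem (WQ' W) p (WQ'_Δ_ne_zero hΔ)).T n)
      (fun σ x => (tateSystem (WQ' W) p (WQ'_Δ_ne_zero hΔ)).act n σ x) := by
  obtain ⟨H, i1, i2, h1, h2, h3, e, hadd, hgal⟩ := h
  refine ⟨H, i1, i2, h1, h2, h3, e.trans (wTorsEquiv W p n).toEquiv, ?_, ?_⟩
  · intro f g
    show wTorsEquiv W p n (e (f * g)) = wTorsEquiv W p n (e f) + wTorsEquiv W p n (e g)
    rw [hadd, map_add]
  · intro σ f g hfg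
    apply Subtype.ext
    exact hgal σ f g hfg

/-- the standard basis of the Tate module -/
def tateBasis (W : WeierstrassCurve ℤ) (hΔ : W.Δ ≠ 0) (p : ℕ) [Fact p.Prime]
    {O : Type} [CommRing O] [IsLocalRing O] [IsAdicComplete (IsLocalRing.maximalIdeal O) O]
    (hpO : (p : O) ∈ IsLocalRing.maximalIdeal O) :
    Module.Basis (Fin 2) O (tateRep (WQ' W) p hpO (WQ'_Δ_ne_zero hΔ)).V :=
  Pi.basisFun O (Fin 2)

/-- **C2, last step.** -/
theorem wFlat_of_hopf (h : WHopfStmt) : WFlatStmt := by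
  intro W hΔ p _ hp2 hgood O _ _ _ _ _ hpO
  set 𝒯 := tateSystem (WQ' W) p (WQ'_Δ_ne_zero hΔ) with h𝒯
  refine isFlatAt_of_flatLevel (inferInstance : Finite (IsLocalRing.ResidueField O)) ?_
  intro 𝔞 h𝔞
  haveI := h𝔞
  obtain ⟨n, hn⟩ := exists_maximalIdeal_pow_le 𝔞
  have hsys : ∀ m : ℕ, HasFlatModel p (𝒯.T m) (fun σ x => 𝒯.act m σ x) :=
    fun m => hasFlatModel_tateSystem W hΔ p m (h W hΔ p hp2 hgood m)
  have hq := hasFlatModel_quotSys 𝒯 hpO hsys 𝔞 n hn
  refine flatLevel_of_coords _ (tateBasis W hΔ p hpO)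
    (fun σ => tateMat (WQ' W) p (IsLocalRing.maximalIdeal O) hpO (WQ'_Δ_ne_zero hΔ) σ) ?_ 𝔞 hq
  intro σ v
  rfl

end Fermat.Agent.S59lib.Flat
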