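/-
S59lib / Flat / Tors  (helper2) — Project I, block C2.

`W[p^k](ℚ̄)` is a finite continuous Galois module (`WTorsStmt` of `Flat/Iface`): finite because it has
`p^{2k}` elements (`S58lib.Tate.hasTwoDimTorsion`), Galois-stable (Prelude), and every point is
defined over a finite extension of `ℚ` (`S58lib.Tate.exists_finite_field_of_finite`).
-/
import Fermat.Agent.S59lib.Flat.Iface
import Fermat.Agent.S58lib.Tate.Rep

set_option autoImplicit false

noncomputable section

namespace Fermat.Agent.S59lib.Flat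

open Fermat.Agent.S19lib Fermat.Agent.S58lib.Tate

local notation "Qb" => AlgebraicClosure ℚ
local notation "GQ" => (AlgebraicClosure ℚ ≃ₐ[ℚ] AlgebraicClosure ℚ)

theorem mem_wTors {W : WeierstrassCurve ℤ} {p k : ℕ} {x : Pts (WQ' W)} :
    x ∈ wTors W p k ↔ x ∈ tors (Pts (WQ' W)) p k := Iff.rfl

/-- **C2-tors.** -/
theorem wTorsStmt : WTorsStmt := by
  intro W hΔ p _ k
  have hE : (WQ' W).Δ ≠ 0 := WQ'_Δ_ne_zero hΔ
  refine ⟨?_, ?_, ?_⟩
  · have h := (hasTwoDimTorsion (WQ' W) hE p).finite k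
    exact h
  · intro σ x hx
    rw [mem_wTors] at hx ⊢
    exact WeierstrassCurve.Affine.Point.smul_mem_torsionBy σ hx
  · intro x _
    obtain ⟨L, hL, h⟩ := exists_finite_field_of_finite (WQ' W) {x} (Set.finite_singleton x)
    exact ⟨L, hL, fun σ hσ => h σ hσ x rfl⟩

end Fermat.Agent.S59lib.Flat
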