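/-
S59lib / Flat / Top  (helper2) — Project I, block C2, assembly.

**`wFlatStmt : WFlatStmt`**: for `W : WeierstrassCurve ℤ` and an odd prime `p ∤ Δ(W)`, the Tate module
`tateRep (WQ' W) p : GaloisRepAdic O` is flat at `p`, for every complete Noetherian local `O` with
finite residue field and `p ∈ 𝔪_O`.

  `exists_unramified_centre` (Centres)  ⟹ `WCentresStmt`
  `wGermStmt_of_centres`      (Germ, helper9)  ⟹ `WGermStmt`
  `wHopf_of_germ` (Iface, helper9; the generic S19 machine `E.orderStmt`, `Lead.descentStmt`,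
     `H.packStmt`, `S13lib.exists_liesOverPrime`) + `wTorsStmt` (Tors)  ⟹ `WHopfStmt`
  `wFlat_of_hopf`             (Main)  ⟹ `WFlatStmt`.
-/
import Fermat.Agent.S59lib.Flat.Germ
import Fermat.Agent.S59lib.Flat.Centres
import Fermat.Agent.S59lib.Flat.Tors
import Fermat.Agent.S59lib.Flat.Main
import Fermat.Agent.S19lib.E.Stmt
import Fermat.Agent.S19lib.H.Pack
import Fermat.Agent.S19lib.Lead.Descent
import Fermat.Agent.S13lib.PlaceOpen

set_option autoImplicit false

noncomputable section

namespace Fermat.Agent.S59lib.Flat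

open Fermat.Agent.S19lib Fermat.Agent.S58lib.Tate

local notation "Qb" => AlgebraicClosure ℚ
local notation "GQ" => (AlgebraicClosure ℚ ≃ₐ[ℚ] AlgebraicClosure ℚ)

theorem wCentresStmt : WCentresStmt :=
  fun W p _ hgood A hA x => exists_unramified_centre W p hgood A hA x

theorem wGermStmt : WGermStmt := wGermStmt_of_centres wCentresStmt

theorem wHopfStmt : WHopfStmt :=
  wHopf_of_germ Fermat.Agent.S19lib.E.orderStmt Fermat.Agent.S19lib.Lead.descentStmt
    Fermat.Agent.S19lib.H.packStmt (fun _ h => Fermat.Agent.S13lib.exists_liesOverPrime h)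
    wGermStmt wTorsStmt

/-- **C2.** -/
theorem wFlatStmt : WFlatStmt := wFlat_of_hopf wHopfStmt

/-- **C2, usable form**: the Tate module of `W` is flat at every odd prime of good reduction. -/
theorem tateRep_isFlatAt (W : WeierstrassCurve ℤ) (hΔ : W.Δ ≠ 0) (p : ℕ) [Fact p.Prime]
    (hp2 : p ≠ 2) (hgood : ¬ (p : ℤ) ∣ W.Δ)
    (O : Type) [CommRing O] [IsLocalRing O] [IsNoetherianRing O]
    [IsAdicComplete (IsLocalRing.maximalIdeal O) O] [Finite (IsLocalRing.ResidueField O)]
    (hpO : (p : O) ∈ IsLocalRing.maximalIdeal O) :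
    (tateRep (WQ' W) p hpO (WQ'_Δ_ne_zero hΔ)).IsFlatAt p :=
  wFlatStmt W hΔ p hp2 hgood O hpO

end Fermat.Agent.S59lib.Flat
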